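import Fermat.Agent.S12.Model

/-!
# Frey curves have no cofixed line, given the third step of Mazur's theorem
-/

set_option autoImplicit false

namespace Fermat.Agent.S12val

open WeierstrassCurve WeierstrassCurve.Affine WeierstrassCurve.Affine.Point
open FermatAgent.ECVal FermatAgent.ECVal.QVal Fermat.Agent.Isog

local notation "ℚbar" => AlgebraicClosure ℚ

section model

variable {P : FreyPackage} {D : CofixedData P} (M : Model P D)

/-- The rational point of order `p` on the quotient curve. -/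
noncomputable def Model.Q : (((ftCurve M.m M.n).map (Int.castRingHom ℚ))⁄ℚbar).Point :=
  M.t.phi D.R

lemma R_notMem : D.R ∉ D.N := by
  have h := D.notMem 1 one_pos P.pp.one_lt
  rwa [one_smul] at h

lemma Model.Q_fix (σ : ℚbar ≃ₐ[ℚ] ℚbar) : σ • M.Q = M.Q := by
  have h1 := M.t.phi_galois D.stable σ (_root_.map_zero σ) (_root_.map_zero σ) (σ.commutes _) D.R
  rw [Model.Q, ← h1]
  have h2 : σ • D.R = D.R + (σ • D.R - D.R) := by abel
  rw [h2, M.t.phi_add_mem _ (D.cofixed σ)]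

lemma Model.Q_ord : addOrderOf M.Q = P.p :=
  M.t.addOrderOf_phi P.pp P.hp5 (by rw [D.torsR]; exact D.N.zero_mem) D.notMem

lemma Model.not_inZero (H : StepThree) (hp17 : 17 ≤ P.p) {ℓ : ℕ} (hℓ : ℓ.Prime) (hℓ2 : ℓ ≠ 2)
    (hdvd : (ℓ : ℤ) ∣ M.A * M.B * (M.A + M.B)) {V : ValuationSubring ℚbar}
    (hV : V.LiesOverPrime ℓ) : ¬ (ftCurve M.m M.n).InZeroComponentAt V M.Q :=
  ft_not_inZero H P.pp hp17 M.hm M.hn M.hA M.hB M.hC M.cop M.h32 M.Q_fix M.Q_ord hℓ hℓ2 hdvd hV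

end model

section odd

variable {P : FreyPackage} {D : CofixedData P}

lemma exists_is_div_four {ℓ : ℕ} (hℓ : ℓ.Prime) (hℓ2 : ℓ ≠ 2) {V : ValuationSubring ℚbar}
    (hV : V.LiesOverPrime ℓ) {x : ℤ} (hx : x ≠ 0) :
    (¬ (ℓ : ℤ) ∣ x → (valOf hℓ hV).Is 0 ((x : ℚbar) / 4)) ∧
      ((ℓ : ℤ) ∣ x → ∃ h : ℚ, 0 < h ∧ (valOf hℓ hV).Is h ((x : ℚbar) / 4)) := by
  have h4 := is_four hℓ hℓ2 hV
  have hx0 : (x : ℚbar) ≠ 0 := by exact_mod_cast hx
  obtain ⟨h, hh⟩ : ∃ h, (valOf hℓ hV).Is h (x : ℚbar) := ⟨_, Is.of_ne hx0⟩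
  have h0 : 0 ≤ h := hh.le_of_ge (ge_intCast x)
  have hh4 : (valOf hℓ hV).Is h ((x : ℚbar) / 4) := by
    rw [div_eq_mul_inv]
    exact (hh.mul h4.inv).congr (by ring)
  constructor
  · intro hnd
    have h1 : ¬ 0 < h := fun hlt => hnd (dvd_of_gt hℓ hV (hh.gt hlt))
    exact hh4.congr (by linarith)
  · rintro ⟨y, rfl⟩
    refine ⟨h, ?_, hh4⟩
    have h1 : (valOf hℓ hV).Gt 0 (((ℓ * y : ℤ)) : ℚbar) := by
      push_cast
      have h2 := (valOf_prime (K := ℚbar) hℓ hV).gt (show (0 : ℚ) < 1 by norm_num)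
      exact (h2.mul_ge (ge_intCast y)).mono (by linarith)
    exact hh.lt_of_gt h1

/-- At odd primes all three values have the same valuation. -/
theorem kap_val_eq (M : Model P D) (H : StepThree) (hp17 : 17 ≤ P.p) {ℓ : ℕ} (hℓ : ℓ.Prime)
    (hℓ2 : ℓ ≠ 2) {V : ValuationSubring ℚbar} (hV : V.LiesOverPrime ℓ) :
    ∃ r : ℚ, (valOf hℓ hV).Is r (kap D.N (0 : ℚbar)) ∧
      (valOf hℓ hV).Is r (kap D.N ((P.a : ℚbar) ^ P.p / 4)) ∧
      (valOf hℓ hV).Is r (kap D.N (-(P.b : ℚbar) ^ P.p / 4)) := by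
  have hp2 : P.p ≠ 2 := by omega
  have hs := freySplit P
  obtain ⟨hb2, hb4, hb6, hb8⟩ := b_mem (P := P) V
  have hint := integral_dichotomy (G := D.N) hℓ hV P.pp D.card hb2 hb4 hb6 hb8
  obtain ⟨a1, a2⟩ := exists_is_div_four hℓ hℓ2 hV (pow_ne_zero P.p P.ha0)
  obtain ⟨b1, b2⟩ := exists_is_div_four hℓ hℓ2 hV (pow_ne_zero P.p P.hb0)
  obtain ⟨c1, c2⟩ := exists_is_div_four hℓ hℓ2 hV (pow_ne_zero P.p P.hc0)
  push_cast at a1 a2 b1 b2 c1 c2
  have hℓp : Prime (ℓ : ℤ) := Nat.prime_iff_prime_int.mp hℓ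
  have hcab : IsCoprime (P.a ^ P.p) (P.b ^ P.p) := (isCoprime_of_gcd P.hgcdab).pow
  have hcac : IsCoprime (P.a ^ P.p) (P.c ^ P.p) := (isCoprime_of_gcd P.hgcdac).pow
  have hcbc : IsCoprime (P.b ^ P.p) (P.c ^ P.p) := (isCoprime_of_gcd P.hgcdbc).pow
  have hc : (P.c : ℚbar) ^ P.p = (P.a : ℚbar) ^ P.p + (P.b : ℚbar) ^ P.p := by
    exact_mod_cast P.hFLT.symm
  have h4 := is_four hℓ hℓ2 hV
  have i4 : (valOf hℓ hV).Ge 0 ((4 : ℚbar)⁻¹) := (h4.inv.congr (by ring : (-0 : ℚ) = 0)).ge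
  have gA : (valOf hℓ hV).Ge 0 ((P.a : ℚbar) ^ P.p / 4) := by
    have h := (ge_intCast (w := valOf hℓ hV) (P.a ^ P.p)).mul i4
    push_cast at h
    rw [div_eq_mul_inv]
    exact h.mono (by linarith)
  have gB : (valOf hℓ hV).Ge 0 (-(P.b : ℚbar) ^ P.p / 4) := by
    have h := (ge_intCast (w := valOf hℓ hV) (P.b ^ P.p)).mul i4
    push_cast at h
    rw [neg_div, div_eq_mul_inv]
    exact (h.mono (by linarith)).neg
  have g0 : (valOf hℓ hV).Ge 0 (0 : ℚbar) := ge_zero 0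
  have gA' : (valOf hℓ hV).Ge 0 ((M.A : ℚbar) / 4) := by
    rw [div_eq_mul_inv]
    exact ((ge_intCast M.A).mul i4).mono (by linarith)
  have gB' : (valOf hℓ hV).Ge 0 (-(M.B : ℚbar) / 4) := by
    rw [neg_div, div_eq_mul_inv]
    exact (((ge_intCast M.B).mul i4).mono (by linarith)).neg
  have hnot : ∀ {Z : ℤ}, Z ∣ M.A * M.B * (M.A + M.B) → (ℓ : ℤ) ∣ Z →
      ¬ (ftCurve M.m M.n).InZeroComponentAt V M.Q := fun hZ h =>
    M.not_inZero H hp17 hℓ hℓ2 (h.trans hZ) hV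
  -- differences
  have d1 : (0 : ℚbar) - (P.a : ℚbar) ^ P.p / 4 = -((P.a : ℚbar) ^ P.p / 4) := by ring
  have d2 : (0 : ℚbar) - -(P.b : ℚbar) ^ P.p / 4 = (P.b : ℚbar) ^ P.p / 4 := by ring
  have d3 : (P.a : ℚbar) ^ P.p / 4 - -(P.b : ℚbar) ^ P.p / 4 = (P.c : ℚbar) ^ P.p / 4 := by
    rw [hc]; ring
  have hQ0 := M.t.xc_phi (P := D.R) R_notMem
  by_cases hA : (ℓ : ℤ) ∣ P.a ^ P.p
  · have hB : ¬ (ℓ : ℤ) ∣ P.b ^ P.p := fun h => hℓp.not_isUnit (hcab.isUnit_of_dvd' hA h)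
    have hC : ¬ (ℓ : ℤ) ∣ P.c ^ P.p := fun h => hℓp.not_isUnit (hcac.isUnit_of_dvd' hA h)
    obtain ⟨h, hh, hh'⟩ := a2 hA
    have e1 : (valOf hℓ hV).Is h ((0 : ℚbar) - (P.a : ℚbar) ^ P.p / 4) := by
      rw [d1]; exact hh'.neg
    have e2 : (valOf hℓ hV).Is 0 ((0 : ℚbar) - -(P.b : ℚbar) ^ P.p / 4) := by
      rw [d2]; exact b1 hB
    have e3 : (valOf hℓ hV).Is 0 ((P.a : ℚbar) ^ P.p / 4 - -(P.b : ℚbar) ^ P.p / 4) := by
      rw [d3]; exact c1 hC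
    have hon := pcomp_eq_zero_of_target hℓ hℓ2 hV M.t P.pp hp2 D.card hh e1 e2 e3 g0
      (X := -M.B) (Y := -(M.A + M.B)) (Z := M.A) (by push_cast; ring) (by push_cast; ring)
      (by ring) ?_ D.torsR R_notMem (Q := M.Q) hQ0
      (hnot ⟨M.B * (M.A + M.B), by ring⟩)
    · exact kap_val_of_on P.pp hp2 D.card hs g0 gA gB e2 e3
        (Or.inr ⟨hh, e1.gt hh, hon⟩) hint
    · have h2 := IsCoprime.add_mul_left_right M.cop.symm 1
      rw [mul_one] at h2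
      rw [IsCoprime.neg_left_iff, IsCoprime.neg_right_iff]
      exact h2
  by_cases hB : (ℓ : ℤ) ∣ P.b ^ P.p
  · have hC : ¬ (ℓ : ℤ) ∣ P.c ^ P.p := fun h => hℓp.not_isUnit (hcbc.isUnit_of_dvd' hB h)
    obtain ⟨h, hh, hh'⟩ := b2 hB
    have e1 : (valOf hℓ hV).Is h (-(P.b : ℚbar) ^ P.p / 4 - 0) := by
      rw [← neg_sub, d2]; exact hh'.neg
    have e2 : (valOf hℓ hV).Is 0 (-(P.b : ℚbar) ^ P.p / 4 - (P.a : ℚbar) ^ P.p / 4) := by
      rw [← neg_sub, d3]; exact (c1 hC).neg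
    have e3 : (valOf hℓ hV).Is 0 ((0 : ℚbar) - (P.a : ℚbar) ^ P.p / 4) := by
      rw [d1]; exact (a1 hA).neg
    have hon := pcomp_eq_zero_of_target hℓ hℓ2 hV M.t.rot.rot P.pp hp2 D.card hh e1 e2 e3 gB'
      (X := M.A + M.B) (Y := M.A) (Z := M.B) (by push_cast; ring) (by ring)
      (by ring) ?_ D.torsR R_notMem (Q := M.Q) ?_
      (hnot ⟨M.A * (M.A + M.B), by ring⟩)
    · obtain ⟨r, r1, r2, r3⟩ := kap_val_of_on P.pp hp2 D.card hs.rot.rot gB g0 gA e2 e3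
        (Or.inr ⟨hh, e1.gt hh, hon⟩) hint
      exact ⟨r, r2, r3, r1⟩
    · have h1 := M.cop.symm
      have h2 := (IsCoprime.add_mul_left_left h1 1)
      rw [mul_one, add_comm] at h2
      exact h2
    · have h1 := M.t.X_sub' (P := D.R) R_notMem
      have h2 : xc M.Q = _ := hQ0
      rw [h2]
      linear_combination h1
  by_cases hC : (ℓ : ℤ) ∣ P.c ^ P.p
  · obtain ⟨h, hh, hh'⟩ := c2 hC
    have e1 : (valOf hℓ hV).Is h ((P.a : ℚbar) ^ P.p / 4 - -(P.b : ℚbar) ^ P.p / 4) := by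
      rw [d3]; exact hh'
    have e2 : (valOf hℓ hV).Is 0 ((P.a : ℚbar) ^ P.p / 4 - 0) := by
      rw [← neg_sub, d1]; exact (a1 hA).neg.neg
    have e3 : (valOf hℓ hV).Is 0 (-(P.b : ℚbar) ^ P.p / 4 - 0) := by
      rw [← neg_sub, d2]; exact (b1 hB).neg
    have hon := pcomp_eq_zero_of_target hℓ hℓ2 hV M.t.rot P.pp hp2 D.card hh e1 e2 e3 gA'
      (X := -M.A) (Y := M.B) (Z := -(M.A + M.B)) (by push_cast; ring) (by ring)
      (by push_cast; ring) ?_ D.torsR R_notMem (Q := M.Q) ?_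
      (hnot ((neg_dvd.mpr (dvd_mul_left _ _))))
    · obtain ⟨r, r1, r2, r3⟩ := kap_val_of_on P.pp hp2 D.card hs.rot gA gB g0 e2 e3
        (Or.inr ⟨hh, e1.gt hh, hon⟩) hint
      exact ⟨r, r3, r1, r2⟩
    · rw [IsCoprime.neg_left_iff]
      exact M.cop
    · have h1 := M.t.X_sub (P := D.R) R_notMem
      have h2 : xc M.Q = _ := hQ0
      rw [h2]
      linear_combination h1
  · have e1 : (valOf hℓ hV).Is 0 ((0 : ℚbar) - (P.a : ℚbar) ^ P.p / 4) := by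
      rw [d1]; exact (a1 hA).neg
    have e2 : (valOf hℓ hV).Is 0 ((0 : ℚbar) - -(P.b : ℚbar) ^ P.p / 4) := by
      rw [d2]; exact b1 hB
    have e3 : (valOf hℓ hV).Is 0 ((P.a : ℚbar) ^ P.p / 4 - -(P.b : ℚbar) ^ P.p / 4) := by
      rw [d3]; exact c1 hC
    exact kap_val_of_on (h := 1) P.pp hp2 D.card hs g0 gA gB e2 e3 (Or.inl e1) hint

end odd

section final

/-- A rational number without prime factors is `± 1`. -/
lemma sq_eq_one_of_padic {q : ℚ} (hq : q ≠ 0)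
    (h : ∀ ℓ : ℕ, ℓ.Prime → padicValRat ℓ q = 0) : q ^ 2 = 1 := by
  have key : ∀ ℓ : ℕ, ℓ.Prime → ¬ ℓ ∣ q.num.natAbs ∧ ¬ ℓ ∣ q.den := by
    intro ℓ hℓ
    have : Fact ℓ.Prime := ⟨hℓ⟩
    have h1 := h ℓ hℓ
    rw [padicValRat_def] at h1
    have hnum : q.num.natAbs ≠ 0 := by
      rw [Ne, Int.natAbs_eq_zero, Rat.num_eq_zero]; exact hq
    constructor
    · intro h2
      have h3 : ¬ ℓ ∣ q.den := fun h3 => by
        have h8 := Nat.dvd_gcd h2 h3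
        rw [q.reduced] at h8
        exact hℓ.one_lt.ne' (Nat.dvd_one.mp h8)
      rw [padicValNat.eq_zero_of_not_dvd h3, padicValInt] at h1
      have h4 := one_le_padicValNat_of_dvd hnum h2
      omega
    · intro h2
      have h3 : ¬ ℓ ∣ q.num.natAbs := fun h3 => by
        have h8 := Nat.dvd_gcd h3 h2
        rw [q.reduced] at h8
        exact hℓ.one_lt.ne' (Nat.dvd_one.mp h8)
      rw [padicValInt, padicValNat.eq_zero_of_not_dvd h3] at h1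
      have h4 := one_le_padicValNat_of_dvd q.den_nz h2
      omega
  have h1 : q.num.natAbs = 1 := by
    by_contra hne
    obtain ⟨ℓ, hℓ, hd⟩ := Nat.exists_prime_and_dvd hne
    exact (key ℓ hℓ).1 hd
  have h2 : q.den = 1 := by
    by_contra hne
    obtain ⟨ℓ, hℓ, hd⟩ := Nat.exists_prime_and_dvd hne
    exact (key ℓ hℓ).2 hd
  have h3 : q = q.num := ((Rat.den_eq_one_iff q).mp h2).symm
  have h4 : q.num ^ 2 = 1 := by
    rw [← Int.natAbs_sq, h1]; norm_num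
  rw [h3]
  exact_mod_cast h4

/-- **Main reduction.** -/
theorem false_of_cofixedData (H : StepThree) {P : FreyPackage} (hp17 : 17 ≤ P.p)
    (D : CofixedData P) : False := by
  obtain ⟨M⟩ := exists_model D
  obtain ⟨r₀, rA, rB, h0, hA, hB, k0, kA, kB⟩ := exists_roots D
  have hrel := rat_relation D k0 kA kB
  -- valuations
  have hval : ∀ ℓ : ℕ, ℓ.Prime → ∀ {V : ValuationSubring ℚbar} (hℓ : ℓ.Prime)
      (hV : V.LiesOverPrime ℓ) {r κ : ℚ}, r ≠ 0 → ∀ {K : ℚbar}, (r : ℚbar) ^ 2 = K →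
      (valOf hℓ hV).Is κ K → 2 * (padicValRat ℓ r : ℚ) = κ := by
    intro ℓ _ V hℓ hV r κ hr K hK hIs
    have h1 := (valOf_ratCast hℓ hV hr).pow 2
    rw [eq_ratCast, hK] at h1
    have h2 := h1.2
    rw [hIs.2] at h2
    rw [h2]
    push_cast
    ring
  have hodd : ∀ ℓ : ℕ, ℓ.Prime → ℓ ≠ 2 →
      padicValRat ℓ rA = padicValRat ℓ r₀ ∧ padicValRat ℓ rB = padicValRat ℓ r₀ := by
    intro ℓ hℓ hℓ2
    obtain ⟨V, hV⟩ := Frob.exists_liesOverPrime ℓ hℓ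
    obtain ⟨r, i0, iA, iB⟩ := kap_val_eq M H hp17 hℓ hℓ2 hV
    have j0 := hval ℓ hℓ hℓ hV h0 k0 i0
    have jA := hval ℓ hℓ hℓ hV hA kA iA
    have jB := hval ℓ hℓ hℓ hV hB kB iB
    constructor
    · have : (padicValRat ℓ rA : ℚ) = padicValRat ℓ r₀ := by linarith
      exact_mod_cast this
    · have : (padicValRat ℓ rB : ℚ) = padicValRat ℓ r₀ := by linarith
      exact_mod_cast this
  obtain ⟨V, hV⟩ := Frob.exists_liesOverPrime 2 Nat.prime_two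
  obtain ⟨v0, vA, vB⟩ := two_adic D hV
  have j0 := hval 2 Nat.prime_two Nat.prime_two hV h0 k0 v0
  have jA := hval 2 Nat.prime_two Nat.prime_two hV hA kA vA
  have jB := hval 2 Nat.prime_two Nat.prime_two hV hB kB vB
  have j0' : padicValRat 2 r₀ = 0 := by
    have : (padicValRat 2 r₀ : ℚ) = 0 := by linarith
    exact_mod_cast this
  have jB' : padicValRat 2 rB = 0 := by
    have : (padicValRat 2 rB : ℚ) = 0 := by linarith
    exact_mod_cast this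
  have hp1 : 1 ≤ P.p := by omega
  have jA' : padicValRat 2 rA = -((P.p - 1 : ℕ) : ℤ) := by
    have h1 : (padicValRat 2 rA : ℚ) = -((P.p - 1 : ℕ) : ℚ) := by
      rw [Nat.cast_sub hp1]
      push_cast
      linarith
    exact_mod_cast h1
  have h2ne : (2 : ℚ) ^ (P.p - 1) ≠ 0 := by positivity
  -- `rB = ± r₀`
  have eB : rB ^ 2 = r₀ ^ 2 := by
    have h1 : (rB / r₀) ^ 2 = 1 := by
      refine sq_eq_one_of_padic (div_ne_zero hB h0) fun ℓ hℓ => ?_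
      have : Fact ℓ.Prime := ⟨hℓ⟩
      rw [padicValRat.div hB h0]
      by_cases hℓ2 : ℓ = 2
      · subst hℓ2
        rw [j0', jB', sub_zero]
      · rw [(hodd ℓ hℓ hℓ2).2, sub_self]
    field_simp at h1
    exact h1
  have eA : rA ^ 2 * (2 ^ (P.p - 1)) ^ 2 = r₀ ^ 2 := by
    have h1 : (rA * 2 ^ (P.p - 1) / r₀) ^ 2 = 1 := by
      refine sq_eq_one_of_padic (div_ne_zero (mul_ne_zero hA h2ne) h0) fun ℓ hℓ => ?_
      have : Fact ℓ.Prime := ⟨hℓ⟩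
      rw [padicValRat.div (mul_ne_zero hA h2ne) h0, padicValRat.mul hA h2ne,
        padicValRat.pow]
      by_cases hℓ2 : ℓ = 2
      · subst hℓ2
        have h3 : padicValRat 2 (2 : ℚ) = 1 := by
          have := padicValRat.self (p := 2) (by norm_num)
          exact_mod_cast this
        rw [j0', jA', h3]
        ring
      · have h3 : padicValRat ℓ (2 : ℚ) = 0 := by
          have h4 : padicValRat ℓ ((2 : ℕ) : ℚ) = 0 := by
            rw [padicValRat.of_nat, padicValNat.eq_zero_of_not_dvd]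
            · rfl
            · intro h5
              exact hℓ2 ((Nat.prime_dvd_prime_iff_eq hℓ Nat.prime_two).mp h5)
          exact_mod_cast h4
        rw [(hodd ℓ hℓ hℓ2).1, h3]
        ring
    field_simp at h1
    exact h1
  -- the final equation
  have hr4 : r₀ ^ 4 ≠ 0 := pow_ne_zero _ h0
  have hfin : ((P.a : ℚ) ^ P.p) ^ P.p + 16 * ((P.b : ℚ) ^ P.p / 16) ^ P.p =
      ((P.c : ℚ) ^ P.p) ^ P.p := by
    have e1 : rB ^ 4 = r₀ ^ 4 := by
      calc rB ^ 4 = (rB ^ 2) ^ 2 := by ring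
        _ = r₀ ^ 4 := by rw [eB]; ring
    have e2 : rA ^ 4 * 16 ^ (P.p - 1) = r₀ ^ 4 := by
      have h16 : (16 : ℚ) ^ (P.p - 1) = ((2 : ℚ) ^ (P.p - 1)) ^ 4 := by
        rw [← pow_mul, mul_comm, pow_mul]; norm_num
      calc rA ^ 4 * 16 ^ (P.p - 1) = (rA ^ 2 * (2 ^ (P.p - 1)) ^ 2) ^ 2 := by rw [h16]; ring
        _ = r₀ ^ 4 := by rw [eA]; ring
    have h16 : (16 : ℚ) ^ P.p = 16 ^ (P.p - 1) * 16 := by
      rw [← pow_succ, Nat.sub_add_cancel hp1]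
    rw [div_pow, div_pow, div_pow, e1] at hrel
    rw [div_pow, h16]
    have h4 : (4 : ℚ) ^ P.p ≠ 0 := by positivity
    have h16' : (16 : ℚ) ^ (P.p - 1) ≠ 0 := by positivity
    field_simp at hrel ⊢
    apply mul_right_cancel₀ hr4
    linear_combination 16 ^ (P.p - 1) * hrel - ((P.b : ℚ) ^ P.p) ^ P.p * e2
  have hreal : ((P.a : ℝ) ^ P.p) ^ P.p + 16 * ((P.b : ℝ) ^ P.p / 16) ^ P.p =
      ((P.c : ℝ) ^ P.p) ^ P.p := by exact_mod_cast congrArg (Rat.cast : ℚ → ℝ) hfin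
  have ha : (P.a : ℝ) ≠ 0 := by exact_mod_cast P.ha0
  have hb : (P.b : ℝ) ≠ 0 := by exact_mod_cast P.hb0
  have hc : (P.c : ℝ) ≠ 0 := by exact_mod_cast P.hc0
  refine no_real_solution P.hp5 P.hp_odd (pow_ne_zero P.p ha)
    (div_ne_zero (pow_ne_zero P.p hb) (by norm_num)) (pow_ne_zero P.p hc) ?_ hreal
  have hF : (P.a : ℝ) ^ P.p + (P.b : ℝ) ^ P.p = (P.c : ℝ) ^ P.p := by exact_mod_cast P.hFLT
  rw [← hF]
  ring

/-- **S15 implies S12.** -/
theorem frey_no_cofixed (H : StepThree) (P : FreyPackage) (hp : 17 ≤ P.p) :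
    ¬ HasGaloisStableCofixedLine (K := AlgebraicClosure ℚ) ℚ P.freyCurve P.p := by
  intro h
  obtain ⟨D⟩ := exists_cofixedData P h
  exact false_of_cofixedData H hp D

end final

end Fermat.Agent.S12val
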