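import Fermat.Agent.S12.ZeroComp
import Fermat.Agent.Frob.Exists

/-!
# Curves `y² + xy = x³ + m x² + n x` with `4m = B - 1 - A`, `16 n = - A B`
-/

set_option autoImplicit false

namespace Fermat.Agent.S12val

open WeierstrassCurve WeierstrassCurve.Affine WeierstrassCurve.Affine.Point
open FermatAgent.ECVal FermatAgent.ECVal.QVal Fermat.Agent.Isog

local notation "ℚbar" => AlgebraicClosure ℚ

/-- The statement of the third step of Mazur's theorem. -/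
def StepThree : Prop :=
  ∀ {p : ℕ} (_ : p.Prime) (_ : p ∉ ({2, 3, 5, 7, 13} : Finset ℕ))
    (W : WeierstrassCurve ℤ) (_ : W.Δ ≠ 0)
    (Q : ((W.map (Int.castRingHom ℚ))⁄(AlgebraicClosure ℚ)).Point)
    (_ : ∀ σ : AlgebraicClosure ℚ ≃ₐ[ℚ] AlgebraicClosure ℚ, σ • Q = Q)
    (_ : addOrderOf Q = p)
    (_ : (2 : ℤ) ∣ W.Δ) (_ : ¬ (2 : ℤ) ∣ W.c₄)
    (_ : ∀ A : ValuationSubring (AlgebraicClosure ℚ), A.LiesOverPrime 2 →
      ¬ W.InZeroComponentAt A Q)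
    (_ : (3 : ℤ) ∣ W.Δ) (_ : ¬ (3 : ℤ) ∣ W.c₄)
    (_ : ∀ A : ValuationSubring (AlgebraicClosure ℚ), A.LiesOverPrime 3 →
      ¬ W.InZeroComponentAt A Q)
    {ℓ : ℕ} (_ : ℓ.Prime) (_ : ℓ ≠ p) (_ : (ℓ : ℤ) ∣ W.Δ) (_ : ¬ (ℓ : ℤ) ∣ W.c₄)
    (A : ValuationSubring (AlgebraicClosure ℚ)) (_ : A.LiesOverPrime ℓ),
    ¬ W.InZeroComponentAt A Q

/-- Integral curves of Frey type. -/
def ftCurve (m n : ℤ) : WeierstrassCurve ℤ := ⟨1, m, 0, n, 0⟩

section

variable {A B m n : ℤ}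

lemma ft_c₄ (hm : 4 * m = B - 1 - A) (hn : 16 * n = -(A * B)) :
    (ftCurve m n).c₄ = A ^ 2 + A * B + B ^ 2 := by
  have h1 : (ftCurve m n).a₁ = 1 := rfl
  have h2 : (ftCurve m n).a₂ = m := rfl
  have h3 : (ftCurve m n).a₃ = 0 := rfl
  have h4 : (ftCurve m n).a₄ = n := rfl
  rw [WeierstrassCurve.c₄, WeierstrassCurve.b₂, WeierstrassCurve.b₄, h1, h2, h3, h4, hm]
  linear_combination (-3) * hn

lemma ft_Δ (hm : 4 * m = B - 1 - A) (hn : 16 * n = -(A * B)) :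
    2 ^ 8 * (ftCurve m n).Δ = (A * B * (A + B)) ^ 2 := by
  have h1 : (ftCurve m n).a₁ = 1 := rfl
  have h2 : (ftCurve m n).a₂ = m := rfl
  have h3 : (ftCurve m n).a₃ = 0 := rfl
  have h4 : (ftCurve m n).a₄ = n := rfl
  have h6 : (ftCurve m n).a₆ = 0 := rfl
  rw [WeierstrassCurve.Δ, WeierstrassCurve.b₈, WeierstrassCurve.b₂, WeierstrassCurve.b₄,
    WeierstrassCurve.b₆, h1, h2, h3, h4, h6, hm]
  have hAB : A * B = -(16 * n) := by rw [hn]; ring
  have e2 : (A * B * (A + B)) ^ 2 = (A * B) ^ 2 * ((B - A) ^ 2 + 4 * (A * B)) := by ring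
  rw [e2, hAB]
  ring

lemma ft_split (hm : 4 * m = B - 1 - A) (hn : 16 * n = -(A * B)) (hA : A ≠ 0) (hB : B ≠ 0)
    (hC : A + B ≠ 0) :
    Split (((ftCurve m n).map (Int.castRingHom ℚ))⁄ℚbar) 0 ((A : ℚbar) / 4) (-(B : ℚbar) / 4) where
  b₂ := by
    rw [WeierstrassCurve.b₂, baseChange_a₁, baseChange_a₂]
    have h1 : (ftCurve m n).a₁ = 1 := rfl
    have h2 : (ftCurve m n).a₂ = m := rfl
    rw [h1, h2]
    have hm' : 4 * (m : ℚbar) = B - 1 - A := by exact_mod_cast hm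
    push_cast
    linear_combination hm'
  b₄ := by
    rw [WeierstrassCurve.b₄, baseChange_a₁, baseChange_a₃, baseChange_a₄]
    have h1 : (ftCurve m n).a₁ = 1 := rfl
    have h3 : (ftCurve m n).a₃ = 0 := rfl
    have h4 : (ftCurve m n).a₄ = n := rfl
    rw [h1, h3, h4]
    have hn' : 16 * (n : ℚbar) = -(A * B) := by exact_mod_cast hn
    push_cast
    linear_combination (1 / 8) * hn'
  b₆ := by
    rw [WeierstrassCurve.b₆, baseChange_a₃, baseChange_a₆]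
    have h3 : (ftCurve m n).a₃ = 0 := rfl
    have h6 : (ftCurve m n).a₆ = 0 := rfl
    rw [h3, h6]
    push_cast
    ring
  ne₁ := by
    have h : (A : ℚbar) ≠ 0 := by exact_mod_cast hA
    have h2 : (A : ℚbar) / 4 ≠ 0 := div_ne_zero h (by norm_num)
    exact h2.symm
  ne₂ := by
    have h : (B : ℚbar) ≠ 0 := by exact_mod_cast hB
    have h2 : -(B : ℚbar) / 4 ≠ 0 := div_ne_zero (neg_ne_zero.mpr h) (by norm_num)
    exact h2.symm
  ne₃ := by
    have h : (A : ℚbar) + B ≠ 0 := by exact_mod_cast hC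
    intro h4
    apply h
    linear_combination 4 * h4
  two := by norm_num

/-- no prime divides both `Δ` and `c₄`. -/
lemma ft_not_dvd_c₄ (hm : 4 * m = B - 1 - A) (hn : 16 * n = -(A * B)) (hAB : IsCoprime A B)
    {q : ℤ} (hq : Prime q) (h : q ∣ A * B * (A + B)) : ¬ q ∣ (ftCurve m n).c₄ := by
  rw [ft_c₄ hm hn]
  intro h1
  have hA : q ∣ A → q ∣ B → False := fun h2 h3 => hq.not_isUnit (hAB.isUnit_of_dvd' h2 h3)
  rcases hq.dvd_or_dvd h with h2 | h2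
  · rcases hq.dvd_or_dvd h2 with h3 | h3
    · refine hA h3 (hq.dvd_of_dvd_pow (n := 2) ?_)
      have : B ^ 2 = (A ^ 2 + A * B + B ^ 2) - A * (A + B) := by ring
      rw [this]
      exact dvd_sub h1 (h3.mul_right _)
    · refine hA (hq.dvd_of_dvd_pow (n := 2) ?_) h3
      have : A ^ 2 = (A ^ 2 + A * B + B ^ 2) - B * (A + B) := by ring
      rw [this]
      exact dvd_sub h1 (h3.mul_right _)
  · have h4 : q ∣ A ^ 2 := by
      have : A ^ 2 = (A ^ 2 + A * B + B ^ 2) - B * (A + B) := by ring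
      rw [this]
      exact dvd_sub h1 (h2.mul_left _)
    have h5 := hq.dvd_of_dvd_pow h4
    refine hA h5 ?_
    have : B = (A + B) - A := by ring
    rw [this]
    exact dvd_sub h2 h5

/-- **Step three for curves of Frey type.** -/
theorem ft_not_inZero (H : StepThree) {p : ℕ} (hp : p.Prime) (hp17 : 17 ≤ p)
    (hm : 4 * m = B - 1 - A) (hn : 16 * n = -(A * B)) (hA : A ≠ 0) (hB : B ≠ 0)
    (hC : A + B ≠ 0) (hAB : IsCoprime A B) (h32 : 32 ∣ B)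
    {Q : (((ftCurve m n).map (Int.castRingHom ℚ))⁄ℚbar).Point}
    (hfix : ∀ σ : ℚbar ≃ₐ[ℚ] ℚbar, σ • Q = Q) (hord : addOrderOf Q = p)
    {ℓ : ℕ} (hℓ : ℓ.Prime) (hℓ2 : ℓ ≠ 2) (hdvd : (ℓ : ℤ) ∣ A * B * (A + B))
    {V : ValuationSubring ℚbar} (hV : V.LiesOverPrime ℓ) :
    ¬ (ftCurve m n).InZeroComponentAt V Q := by
  have hΔ := ft_Δ hm hn
  have hΔ0 : (ftCurve m n).Δ ≠ 0 := by
    intro h0
    rw [h0, mul_zero] at hΔ
    exact pow_ne_zero 2 (mul_ne_zero (mul_ne_zero hA hB) hC) hΔ.symm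
  have hℓp : Prime (ℓ : ℤ) := Nat.prime_iff_prime_int.mp hℓ
  have hℓΔ : (ℓ : ℤ) ∣ (ftCurve m n).Δ := by
    have h1 : (ℓ : ℤ) ∣ 2 ^ 8 * (ftCurve m n).Δ := by
      rw [hΔ]
      exact dvd_pow hdvd (by norm_num)
    rcases hℓp.dvd_or_dvd h1 with h2 | h2
    · exfalso
      have h3 := hℓp.dvd_of_dvd_pow h2
      have h4 : ℓ ∣ 2 := by exact_mod_cast h3
      exact hℓ2 ((Nat.prime_dvd_prime_iff_eq hℓ Nat.prime_two).mp h4)
    · exact h2
  have hℓc := ft_not_dvd_c₄ hm hn hAB hℓp hdvd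
  by_cases hℓp' : ℓ = p
  · subst hℓp'
    exact not_inZero_at_p hp hℓ2 hV hℓΔ hℓc hfix hord
  · have h2Δ : (2 : ℤ) ∣ (ftCurve m n).Δ := by
      obtain ⟨k, hk⟩ := h32
      have h1 : 2 ^ 8 * (ftCurve m n).Δ = 2 ^ 8 * (2 ^ 2 * (A * k * (A + B)) ^ 2) := by
        rw [hΔ, hk]; ring
      have h2 := mul_left_cancel₀ (by norm_num) h1
      rw [h2]
      exact ⟨2 * (A * k * (A + B)) ^ 2, by ring⟩
    have h2c : ¬ (2 : ℤ) ∣ (ftCurve m n).c₄ := by
      refine ft_not_dvd_c₄ hm hn hAB Int.prime_two ?_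
      exact ((Dvd.dvd.trans (by norm_num) h32).mul_left A).mul_right _
    have h2 : ∀ V : ValuationSubring (AlgebraicClosure ℚ), V.LiesOverPrime 2 →
        ¬ (ftCurve m n).InZeroComponentAt V Q := fun V hV =>
      not_inZero_of_small hp Nat.prime_two (by omega) hV hfix hord
    have h3 : ∀ V : ValuationSubring (AlgebraicClosure ℚ), V.LiesOverPrime 3 →
        ¬ (ftCurve m n).InZeroComponentAt V Q := fun V hV =>
      not_inZero_of_small hp Nat.prime_three (by omega) hV hfix hord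
    obtain ⟨V₃, hV₃⟩ := Frob.exists_liesOverPrime 3 Nat.prime_three
    have h3Δ : (3 : ℤ) ∣ (ftCurve m n).Δ := by
      exact_mod_cast dvd_Δ_of_not_inZero Nat.prime_three hV₃ (h3 V₃ hV₃)
    have h3c : ¬ (3 : ℤ) ∣ (ftCurve m n).c₄ := by
      refine ft_not_dvd_c₄ hm hn hAB Int.prime_three ?_
      refine Int.prime_three.dvd_of_dvd_pow (n := 2) ?_
      rw [← hΔ]
      exact h3Δ.mul_left _
    refine H hp ?_ _ hΔ0 Q hfix hord h2Δ h2c h2 h3Δ h3c h3 hℓ hℓp' hℓΔ hℓc V hV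
    intro hmem
    simp only [Finset.mem_insert, Finset.mem_singleton] at hmem
    omega

end

end Fermat.Agent.S12val
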