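import Fermat.Agent.S12.SmallPrime
import Fermat.Agent.ECVal.QbarVal
import Fermat.Agent.ECVal.XLine

/-!
# Rational `p`-torsion at `p`
-/

set_option autoImplicit false

namespace Fermat.Agent.S12val

open WeierstrassCurve WeierstrassCurve.Affine WeierstrassCurve.Affine.Point
open Fermat.Agent.ECRed FermatAgent.ECVal Polynomial

local notation "ℚbar" => AlgebraicClosure ℚ

/-- A polynomial with integral coefficients and leading coefficient `p` has no root of
valuation `≤ -2`. -/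
lemma aeval_ne_zero_of_val {p : ℕ} (hp : p.Prime) {f : ℤ[X]} (hlead : f.leadingCoeff = p)
    {r : ℚ} (hr0 : r ≠ 0) (hr : padicValRat p r ≤ -2) : aeval r f ≠ 0 := by
  have : Fact p.Prime := ⟨hp⟩
  set w : QVal ℚ := ratVal p with hw
  set n : ℚ := -(padicValRat p r : ℚ) with hn
  have hn2 : 2 ≤ n := by
    have : (padicValRat p r : ℚ) ≤ -2 := by exact_mod_cast hr
    linarith
  have hwr : w.Is (-n) r := ⟨hr0, by rw [hn, neg_neg]; rfl⟩
  have hwp : w.Is 1 ((p : ℕ) : ℚ) := by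
    refine ⟨by exact_mod_cast hp.ne_zero, ?_⟩
    change ((padicValRat p (p : ℚ) : ℤ) : ℚ) = 1
    rw [padicValRat.self hp.one_lt]; norm_num
  set d := f.natDegree with hd
  have h1 : w.Is (1 - d * n) ((f.coeff d : ℚ) * r ^ d) := by
    have : f.coeff d = (p : ℤ) := hlead
    rw [this]
    have h2 := hwp.mul (hwr.pow d)
    have h3 : (((p : ℕ) : ℤ) : ℚ) = ((p : ℕ) : ℚ) := by push_cast; rfl
    rw [h3]
    exact h2.congr (by ring)
  have h2 : w.Gt (1 - d * n) (∑ i ∈ Finset.range d, (f.coeff i : ℚ) * r ^ i) := by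
    have hgen : ∀ s : Finset ℕ, (∀ i ∈ s, i < d) →
        w.Gt (1 - d * n) (∑ i ∈ s, (f.coeff i : ℚ) * r ^ i) := by
      intro s
      induction s using Finset.induction_on with
      | empty => intro _; simpa using QVal.gt_zero _
      | insert a s ha ih =>
        intro hs
        rw [Finset.sum_insert ha]
        refine QVal.Gt.add ?_ (ih fun i hi => hs i (Finset.mem_insert_of_mem hi))
        have hlt := hs a (Finset.mem_insert_self a s)
        have h3 := (QVal.ge_intCast (w := w) (f.coeff a)).mul (hwr.pow a).ge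
        refine h3.gt ?_
        have h4 : (a : ℚ) + 1 ≤ d := by exact_mod_cast hlt
        nlinarith
    exact hgen _ fun i hi => Finset.mem_range.mp hi
  have h3 : aeval r f = (f.coeff d : ℚ) * r ^ d +
      ∑ i ∈ Finset.range d, (f.coeff i : ℚ) * r ^ i := by
    rw [aeval_eq_sum_range, ← hd, Finset.sum_range_succ, add_comm]
    simp [zsmul_eq_mul]
  rw [h3]
  exact (h1.add_gt h2).1

variable {W : WeierstrassCurve ℤ} {p : ℕ} {A : ValuationSubring ℚbar}
  {Q : ((W.map (Int.castRingHom ℚ))⁄ℚbar).Point}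

/-- The denominator of the `x`-coordinate of a rational point is a square. -/
lemma val_le_neg_two {p : ℕ} (hp : p.Prime) (hp2 : p ≠ 2) {r t : ℚ} {b₂ b₄ b₆ : ℤ}
    (hneg : padicValRat p r < 0) (heq : t ^ 2 = 4 * r ^ 3 + (b₂ * r ^ 2 + 2 * b₄ * r + b₆)) :
    padicValRat p r ≤ -2 := by
  have : Fact p.Prime := ⟨hp⟩
  have hr0 : r ≠ 0 := by
    rintro rfl
    simp at hneg
  set w : QVal ℚ := ratVal p with hw
  set n : ℚ := -(padicValRat p r : ℚ) with hn
  have hn0 : 0 < n := by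
    have : (padicValRat p r : ℚ) < 0 := by exact_mod_cast hneg
    linarith
  have hwr : w.Is (-n) r := ⟨hr0, by rw [hn, neg_neg]; rfl⟩
  have hw4 : w.Is 0 (4 : ℚ) := by
    refine ⟨by norm_num, ?_⟩
    change ((padicValRat p (4 : ℚ) : ℤ) : ℚ) = 0
    have : padicValRat p ((4 : ℕ) : ℚ) = 0 := by
      rw [padicValRat.of_nat, padicValNat.eq_zero_of_not_dvd, Nat.cast_zero]
      intro h
      have h' : p ∣ 2 ^ 2 := by norm_num; exact h
      exact hp2 ((Nat.prime_dvd_prime_iff_eq hp Nat.prime_two).mp (hp.dvd_of_dvd_pow h'))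
    rw [show ((4 : ℚ)) = ((4 : ℕ) : ℚ) by norm_num, this]; rfl
  have hlead : w.Is (-3 * n) (4 * r ^ 3) := (hw4.mul (hwr.pow 3)).congr (by push_cast; ring)
  have hrest : w.Gt (-3 * n) (b₂ * r ^ 2 + 2 * b₄ * r + b₆) := by
    refine QVal.Gt.add (QVal.Gt.add ?_ ?_) ?_
    · exact ((QVal.ge_intCast (w := w) b₂).mul (hwr.pow 2).ge).gt (by push_cast; linarith)
    · exact (((QVal.ge_two (w := w)).mul (QVal.ge_intCast (w := w) b₄)).mul hwr.ge).gt
        (by linarith)
    · exact (QVal.ge_intCast (w := w) b₆).gt (by linarith)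
  have hsum := hlead.add_gt hrest
  rw [← heq] at hsum
  have ht0 : t ≠ 0 := by
    rintro h0
    rw [h0] at hsum
    exact hsum.1 (by norm_num)
  have hteq : w.Is (2 * w.val t) (t ^ 2) := (QVal.Is.of_ne (w := w) ht0).sq
  have hval : 2 * w.val t = -3 * n := hteq.unique hsum
  have hval' : 2 * (padicValRat p t) = 3 * padicValRat p r := by
    have h1 : w.val t = (padicValRat p t : ℚ) := rfl
    rw [h1, hn] at hval
    have h2 : (2 : ℚ) * (padicValRat p t : ℚ) = 3 * (padicValRat p r : ℚ) := by linarith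
    exact_mod_cast h2
  omega

lemma rat_equation {r s : ℚ} {x y : ℚbar}
    {hxy : ((W.map (Int.castRingHom ℚ))⁄ℚbar).Nonsingular x y}
    (hr : algebraMap ℚ ℚbar r = x) (hs : algebraMap ℚ ℚbar s = y) :
    (2 * s + W.a₁ * r + W.a₃) ^ 2 = 4 * r ^ 3 + (W.b₂ * r ^ 2 + 2 * W.b₄ * r + W.b₆) := by
  have heq := psi2_sq hxy.1
  have hb2 : ((W.map (Int.castRingHom ℚ))⁄ℚbar).b₂ = algebraMap ℚ ℚbar ((W.b₂ : ℤ) : ℚ) := by
    change ((W.map (Int.castRingHom ℚ)).map (algebraMap ℚ ℚbar)).b₂ = _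
    rw [WeierstrassCurve.map_b₂, WeierstrassCurve.map_b₂]; rfl
  have hb4 : ((W.map (Int.castRingHom ℚ))⁄ℚbar).b₄ = algebraMap ℚ ℚbar ((W.b₄ : ℤ) : ℚ) := by
    change ((W.map (Int.castRingHom ℚ)).map (algebraMap ℚ ℚbar)).b₄ = _
    rw [WeierstrassCurve.map_b₄, WeierstrassCurve.map_b₄]; rfl
  have hb6 : ((W.map (Int.castRingHom ℚ))⁄ℚbar).b₆ = algebraMap ℚ ℚbar ((W.b₆ : ℤ) : ℚ) := by
    change ((W.map (Int.castRingHom ℚ)).map (algebraMap ℚ ℚbar)).b₆ = _
    rw [WeierstrassCurve.map_b₆, WeierstrassCurve.map_b₆]; rfl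
  have ha1 : ((W.map (Int.castRingHom ℚ))⁄ℚbar).a₁ = algebraMap ℚ ℚbar ((W.a₁ : ℤ) : ℚ) := by
    change ((W.map (Int.castRingHom ℚ)).map (algebraMap ℚ ℚbar)).a₁ = _
    rw [WeierstrassCurve.map_a₁, WeierstrassCurve.map_a₁]; rfl
  have ha3 : ((W.map (Int.castRingHom ℚ))⁄ℚbar).a₃ = algebraMap ℚ ℚbar ((W.a₃ : ℤ) : ℚ) := by
    change ((W.map (Int.castRingHom ℚ)).map (algebraMap ℚ ℚbar)).a₃ = _
    rw [WeierstrassCurve.map_a₃, WeierstrassCurve.map_a₃]; rfl
  rw [hb2, hb4, hb6, ha1, ha3, ← hr, ← hs] at heq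
  apply (algebraMap ℚ ℚbar).injective
  simp only [_root_.map_add, _root_.map_mul, map_pow, map_ofNat]
  linear_combination heq

lemma aeval_preΨ'_eq_zero {n : ℕ} (hodd : ¬ Even n) {r : ℚ} {x y : ℚbar}
    {hxy : ((W.map (Int.castRingHom ℚ))⁄ℚbar).Nonsingular x y}
    (hr : algebraMap ℚ ℚbar r = x) (hQ : n • Point.some x y hxy = 0) :
    aeval r (W.preΨ' n) = 0 := by
  have hord := (Torsion.nsmul_eq_zero_iff hxy n).mp hQ
  rw [WeierstrassCurve.ΨSq_ofNat, if_neg hodd, mul_one, eval_pow, sq_eq_zero_iff] at hord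
  apply (algebraMap ℚ ℚbar).injective
  rw [_root_.map_zero, ← hord, WeierstrassCurve.baseChange, WeierstrassCurve.map_preΨ',
    WeierstrassCurve.map_preΨ', eval_map, eval₂_map, ← hr, aeval_def, hom_eval₂]
  congr 1

/-- A rational point of order `p` is not in the kernel of reduction at `p`. -/
theorem xc_mem_of_fixed (hp : p.Prime) (hp2 : p ≠ 2) (hA : A.LiesOverPrime p)
    (hfix : ∀ σ : ℚbar ≃ₐ[ℚ] ℚbar, σ • Q = Q) (hQ : p • Q = 0) (hQ0 : Q ≠ 0) :
    xc Q ∈ A := by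
  by_contra hcon
  obtain ⟨r, hr⟩ := exists_rat_xc hfix
  obtain ⟨s, hs⟩ : ∃ s : ℚ, algebraMap ℚ ℚbar s = yc Q :=
    S13five.exists_rat_of_fixed fun σ => by rw [← yc_smul, hfix]
  have hr0 : r ≠ 0 := by
    rintro rfl
    rw [_root_.map_zero] at hr
    exact hcon (by rw [← hr]; exact A.zero_mem)
  -- the valuation of `r` is negative
  have hneg : padicValRat p r < 0 := by
    by_contra h
    rw [not_lt] at h
    apply hcon
    rw [← valOf_ge_zero_iff hp hA, ← hr]
    refine ((valOf_ratCast hp hA hr0).ge).mono ?_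
    exact_mod_cast h
  rcases Q with _ | ⟨x, y, hxy⟩
  · exact hQ0 rfl
  simp only [xc, yc] at hr hs
  have hr2 := val_le_neg_two hp hp2 hneg (rat_equation (hxy := hxy) hr hs)
  have hodd : ¬ Even p := by
    rw [Nat.not_even_iff_odd]; exact hp.odd_of_ne_two hp2
  have hlc : (W.preΨ' p).leadingCoeff = (p : ℤ) := by
    rw [WeierstrassCurve.leadingCoeff_preΨ' W (by exact_mod_cast hp.ne_zero), if_neg hodd]
  exact aeval_ne_zero_of_val hp hlc hr0 hr2 (aeval_preΨ'_eq_zero hodd hr hQ)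

/-- **At `p`.** A rational point of order `p` does not lie in the zero component at `p`, if the
reduction at `p` is multiplicative. -/
theorem not_inZero_at_p (hp : p.Prime) (hp2 : p ≠ 2) (hA : A.LiesOverPrime p)
    (hΔ : (p : ℤ) ∣ W.Δ) (hc₄ : ¬ (p : ℤ) ∣ W.c₄)
    (hfix : ∀ σ : ℚbar ≃ₐ[ℚ] ℚbar, σ • Q = Q) (hord : addOrderOf Q = p) :
    ¬ W.InZeroComponentAt A Q := by
  classical
  intro hzero
  rw [inZeroComponentAt_iff] at hzero
  obtain ⟨R, hR⟩ := hzero
  have hE := redCurve_map_int_rat (K := ℚbar) (IsLocalRing.residue A) W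
  have hpl := isPlace_valuationSubring A
  have hch := charP_residue hp hA
  have : Fact p.Prime := ⟨hp⟩
  have hQ : p • Q = 0 := by rw [← hord]; exact addOrderOf_nsmul_eq_zero Q
  have hQ0 : Q ≠ 0 := by
    rintro rfl
    rw [addOrderOf_zero] at hord
    exact hp.one_lt.ne hord
  have h1 := isRed_nsmul hE hpl hR p
  rw [hQ, isRed_zero_left_iff] at h1
  have hR0 : R = 0 := by
    refine nodal_no_torsion (p := p) hp2 ?_ ?_ h1
    · change (W.map (Int.castRingHom (IsLocalRing.ResidueField A))).Δ = 0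
      rw [WeierstrassCurve.map_Δ, eq_intCast, CharP.intCast_eq_zero_iff _ p]
      exact hΔ
    · change (W.map (Int.castRingHom (IsLocalRing.ResidueField A))).c₄ ≠ 0
      rw [WeierstrassCurve.map_c₄, eq_intCast, Ne, CharP.intCast_eq_zero_iff _ p]
      exact hc₄
  rw [hR0] at hR
  rcases isRed_zero_right_iff.mp hR with h | h
  · exact hQ0 h
  · have h2 := xc_mem_of_fixed hp hp2 hA hfix hQ hQ0
    rw [← A.valuation_le_one_iff] at h2
    exact absurd h (not_lt.mpr h2)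

end Fermat.Agent.S12val
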