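import Fermat.Agent.S12.OnVal

/-!
# The valuation of `E' - E` on the quotient curve in the off case
-/

set_option autoImplicit false

namespace Fermat.Agent.S12val

open WeierstrassCurve WeierstrassCurve.Affine WeierstrassCurve.Affine.Point
open FermatAgent.ECVal FermatAgent.ECVal.QVal Fermat.Agent.Isog

variable {K : Type*} [Field K] [DecidableEq K] {w : QVal K} {W : Affine K} {e e' e'' D : K} {h : ℚ}
  {G : AddSubgroup W.Point} [Fintype G] [DecidableEq G] {p : ℕ}

/-- If `m(S) = m(T)` for nonzero elements of `G` (off case), then `S = ± T`. -/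
lemma eq_or_eq_neg_of_pcomp_eq (N : NodeData w W e D h)
    (hoff : ∀ S ∈ G, S ≠ 0 → 0 < pcomp w e h S) {S T : W.Point} (hS : S ∈ G) (hT : T ∈ G)
    (hST : pcomp w e h S = pcomp w e h T) : S = T ∨ S = -T := by
  rcases pcomp_eq_zero_of_eq N hST with h3 | h3
  · right
    by_contra h4
    exact (hoff _ (G.add_mem hS hT) (fun h5 => h4 (eq_neg_of_add_eq_zero_left h5))).ne' h3
  · left
    by_contra h4
    exact (hoff _ (G.sub_mem hS hT) (fun h5 => h4 (sub_eq_zero.mp h5))).ne' h3

lemma sum_Icc_two_mul (m : ℕ) : ∑ j ∈ Finset.Icc 1 m, 2 * j = m * (m + 1) := by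
  induction m with
  | zero => simp
  | succ m ih =>
    rw [Finset.sum_Icc_succ_top (by omega), ih]
    ring

/-- In the off case, `2 Σ m(S) < p h`. -/
theorem two_sum_pcomp_lt (N : NodeData w W e D h) (hp : p.Prime) (hp2 : p ≠ 2)
    (hcard : Fintype.card G = p) (hoff : ∀ S ∈ G, S ≠ 0 → 0 < pcomp w e h S) :
    2 * ∑ S ∈ nz G, pcomp w e h (S : W.Point) < p * h := by
  have hodd : Odd p := hp.odd_of_ne_two hp2
  have hh := N.hh
  have hp0 : (0 : ℚ) < p := by exact_mod_cast hp.pos
  obtain ⟨m, hm⟩ := hodd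
  have hex : ∀ S : G, ∃ j : ℕ, (p : ℚ) * pcomp w e h (S : W.Point) = j * (2 * h) := by
    intro S
    obtain ⟨j, hj⟩ := pcomp_torsion N (card_smul_eq_zero' hcard S.2)
    have h0 : (0 : ℚ) ≤ j := by
      by_contra hcon
      rw [not_le] at hcon
      have := pcomp_nonneg N (S : W.Point)
      nlinarith [mul_nonneg hp0.le this]
    have h0' : 0 ≤ j := by exact_mod_cast h0
    refine ⟨j.toNat, ?_⟩
    rw [hj]
    congr 1
    exact_mod_cast (Int.toNat_of_nonneg h0').symm
  choose g hg using hex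
  have hmaps : ∀ S ∈ nz G, g S ∈ Finset.Icc 1 m := by
    intro S hS
    have hS0 := coe_ne_zero_of_mem_nz G hS
    have h1 := hoff S S.2 hS0
    have h2 := pcomp_lt_of_torsion N (hp.odd_of_ne_two hp2) (card_smul_eq_zero' hcard S.2)
    have h3 := hg S
    rw [Finset.mem_Icc]
    constructor
    · by_contra hcon
      have h4 : g S = 0 := by omega
      rw [h4] at h3
      push_cast at h3
      nlinarith [mul_pos hp0 h1]
    · by_contra hcon
      rw [not_le] at hcon
      have h4 : ((m : ℚ) + 1) ≤ g S := by exact_mod_cast hcon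
      have h5 : (p : ℚ) = 2 * m + 1 := by exact_mod_cast hm
      have h6 : (p : ℚ) * pcomp w e h (S : W.Point) < p * h := mul_lt_mul_of_pos_left h2 hp0
      rw [h3, h5] at h6
      nlinarith
  have h1 : ∑ S ∈ nz G, g S ≤ m * (m + 1) := by
    rw [← Finset.sum_fiberwise_of_maps_to hmaps, ← sum_Icc_two_mul]
    refine Finset.sum_le_sum fun j hj => ?_
    have h2 : ((nz G).filter (fun S => g S = j)).card ≤ 2 := by
      by_cases hne : ((nz G).filter (fun S => g S = j)).Nonempty
      · obtain ⟨S, hS⟩ := hne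
        rw [Finset.mem_filter] at hS
        refine (Finset.card_le_card (t := ({S, -S} : Finset G)) ?_).trans Finset.card_le_two
        intro T hT
        rw [Finset.mem_filter] at hT
        rw [Finset.mem_insert, Finset.mem_singleton]
        have h3 : pcomp w e h (T : W.Point) = pcomp w e h (S : W.Point) := by
          apply mul_left_cancel₀ hp0.ne'
          rw [hg, hg, hT.2, hS.2]
        rcases eq_or_eq_neg_of_pcomp_eq N hoff T.2 S.2 h3 with h4 | h4
        · exact Or.inl (Subtype.ext h4)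
        · exact Or.inr (Subtype.ext (by rw [h4, AddSubgroup.coe_neg]))
      · rw [Finset.not_nonempty_iff_eq_empty] at hne
        rw [hne]; simp
    have h3 : ∑ S ∈ (nz G).filter (fun S => g S = j), g S =
        ((nz G).filter (fun S => g S = j)).card * j := by
      rw [Finset.sum_congr rfl (g := fun _ => j) (fun S hS => (Finset.mem_filter.mp hS).2),
        Finset.sum_const, smul_eq_mul]
    rw [h3]
    exact Nat.mul_le_mul_right j h2
  have h2 : (p : ℚ) * ∑ S ∈ nz G, pcomp w e h (S : W.Point) =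
      ((∑ S ∈ nz G, g S : ℕ) : ℚ) * (2 * h) := by
    rw [Finset.mul_sum, Nat.cast_sum, Finset.sum_mul]
    exact Finset.sum_congr rfl fun S _ => hg S
  have h3 : ((∑ S ∈ nz G, g S : ℕ) : ℚ) ≤ m * (m + 1) := by exact_mod_cast h1
  have h5 : (p : ℚ) = 2 * m + 1 := by exact_mod_cast hm
  have h6 : (p : ℚ) * (2 * ∑ S ∈ nz G, pcomp w e h (S : W.Point)) < p * (p * h) := by
    have h7 : (p : ℚ) * (2 * ∑ S ∈ nz G, pcomp w e h (S : W.Point)) =
      2 * (((∑ S ∈ nz G, g S : ℕ) : ℚ) * (2 * h)) := by rw [← h2]; ring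
    rw [h7, h5]
    have h8 : 2 * (((∑ S ∈ nz G, g S : ℕ) : ℚ) * (2 * h)) ≤ 2 * (((m : ℚ) * (m + 1)) * (2 * h)) := by
      have : ((∑ S ∈ nz G, g S : ℕ) : ℚ) * (2 * h) ≤ ((m : ℚ) * (m + 1)) * (2 * h) :=
        mul_le_mul_of_nonneg_right h3 (by linarith)
      linarith
    nlinarith
  exact lt_of_mul_lt_mul_left h6 hp0.le

/-- the valuation of `∏ (x(S) - e)` in the off case, for both node roots. -/
lemma kap_val_off (N : NodeData w W e D h) (hp : p.Prime) (hp2 : p ≠ 2)
    (hcard : Fintype.card G = p) (hoff : ∀ S ∈ G, S ≠ 0 → 0 < pcomp w e h S)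
    (he : w.Ge h (e - e')) :
    w.Is (∑ S ∈ nz G, pcomp w e h (S : W.Point)) (kap G e) ∧
    w.Is (∑ S ∈ nz G, pcomp w e h (S : W.Point)) (kap G e') := by
  have hodd : Odd p := hp.odd_of_ne_two hp2
  constructor
  · refine Is_prod _ _ _ fun S hS => ?_
    exact is_of_pcomp_mem (hoff S S.2 (coe_ne_zero_of_mem_nz G hS))
      (pcomp_lt_of_torsion N hodd (card_smul_eq_zero' hcard S.2))
  · refine Is_prod _ _ _ fun S hS => ?_
    have h1 := pcomp_lt_of_torsion N hodd (card_smul_eq_zero' hcard S.2)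
    have h2 : w.Is _ (xc (S : W.Point) - e) :=
      is_of_pcomp_mem (hoff S S.2 (coe_ne_zero_of_mem_nz G hS)) h1
    have h3 : xc (S : W.Point) - e' = (xc (S : W.Point) - e) + (e - e') := by ring
    rw [h3]
    exact h2.add_gt (he.gt h1)

/-- The valuation at the simple root in the off case. -/
lemma kap_val_off' (N : NodeData w W e D h) (hp : p.Prime) (hp2 : p ≠ 2)
    (hcard : Fintype.card G = p) (hoff : ∀ S ∈ G, S ≠ 0 → 0 < pcomp w e h S)
    (he : w.Is 0 (e - e'')) :
    w.Is 0 (kap G e'') := by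
  have hodd : Odd p := hp.odd_of_ne_two hp2
  refine kap_val_zero fun S hS hS0 => ?_
  have h1 := hoff S hS hS0
  have h2 : w.Is _ (xc (S : W.Point) - e) :=
      is_of_pcomp_mem h1 (pcomp_lt_of_torsion N hodd (card_smul_eq_zero' hcard hS))
  have h3 : xc (S : W.Point) - e'' = (xc (S : W.Point) - e) + (e - e'') := by ring
  rw [h3]
  exact (h2.gt h1).add_is he

end Fermat.Agent.S12val
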