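import Fermat.Agent.S12.SmallPrime
import Fermat.Agent.S12.AtP
import Fermat.Agent.S12.SumLe
import Fermat.Agent.ECVal.InertiaFix

/-!
# Criteria for points to lie on the identity component
-/

set_option autoImplicit false

namespace Fermat.Agent.S12val

open WeierstrassCurve WeierstrassCurve.Affine WeierstrassCurve.Affine.Point
open FermatAgent.ECVal FermatAgent.ECVal.QVal Fermat.Agent.Isog

local notation "ℚbar" => AlgebraicClosure ℚ

section

variable {W : WeierstrassCurve ℤ} {V : ValuationSubring ℚbar}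
  {Q : ((W.map (Int.castRingHom ℚ))⁄ℚbar).Point}

lemma baseChange_a₁ : ((W.map (Int.castRingHom ℚ))⁄ℚbar).a₁ = (W.a₁ : ℚbar) := by
  simp

lemma baseChange_a₂ : ((W.map (Int.castRingHom ℚ))⁄ℚbar).a₂ = (W.a₂ : ℚbar) := by
  simp

lemma baseChange_a₃ : ((W.map (Int.castRingHom ℚ))⁄ℚbar).a₃ = (W.a₃ : ℚbar) := by
  simp

lemma baseChange_a₄ : ((W.map (Int.castRingHom ℚ))⁄ℚbar).a₄ = (W.a₄ : ℚbar) := by
  simp

lemma baseChange_a₆ : ((W.map (Int.castRingHom ℚ))⁄ℚbar).a₆ = (W.a₆ : ℚbar) := by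
  simp

lemma intCast_mem (V : ValuationSubring ℚbar) (n : ℤ) : (n : ℚbar) ∈ V := by
  have h : ((n : V) : ℚbar) = n := by push_cast; rfl
  rw [← h]; exact (n : V).2

/-- integrality of `y`. -/
lemma mem_of_equation {a₁ a₂ a₃ a₄ a₆ x y : ℚbar} (h1 : a₁ ∈ V) (h2 : a₂ ∈ V) (h3 : a₃ ∈ V)
    (h4 : a₄ ∈ V) (h6 : a₆ ∈ V) (hx : x ∈ V)
    (h : y ^ 2 + a₁ * x * y + a₃ * y = x ^ 3 + a₂ * x ^ 2 + a₄ * x + a₆) : y ∈ V := by
  rw [← V.valuation_le_one_iff] at h1 h2 h3 h4 h6 hx ⊢
  by_contra hcon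
  rw [not_le] at hcon
  have hy0 : y ≠ 0 := by
    rintro rfl
    rw [_root_.map_zero] at hcon
    exact absurd hcon (not_lt.mpr zero_le_one)
  have h5 : y = (x ^ 3 + a₂ * x ^ 2 + a₄ * x + a₆) * y⁻¹ - (a₁ * x + a₃) := by
    field_simp
    linear_combination h
  have h7 : V.valuation y⁻¹ ≤ 1 := by
    rw [map_inv₀]
    exact inv_le_one_of_one_le₀ hcon.le
  have h8 : V.valuation y ≤ 1 := by
    rw [V.valuation_le_one_iff] at h1 h2 h3 h4 h6 hx h7 ⊢
    rw [h5]
    exact sub_mem (mul_mem (add_mem (add_mem (add_mem (pow_mem hx 3)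
      (mul_mem h2 (pow_mem hx 2))) (mul_mem h4 hx)) h6) h7) (add_mem (mul_mem h1 hx) h3)
  exact absurd hcon (not_lt.mpr h8)

/-- A point outside the identity component has integral coordinates and reduces to a singular
point. -/
theorem singular_of_not_inZero (h : ¬ W.InZeroComponentAt V Q) :
    ∃ (x y : ℚbar) (hxy : ((W.map (Int.castRingHom ℚ))⁄ℚbar).Nonsingular x y)
      (hx : x ∈ V) (hy : y ∈ V), Q = some x y hxy ∧
      (W.map (Int.castRingHom (IsLocalRing.ResidueField V))).toAffine.Equation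
        (IsLocalRing.residue V ⟨x, hx⟩) (IsLocalRing.residue V ⟨y, hy⟩) ∧
      ¬ (W.map (Int.castRingHom (IsLocalRing.ResidueField V))).toAffine.Nonsingular
        (IsLocalRing.residue V ⟨x, hx⟩) (IsLocalRing.residue V ⟨y, hy⟩) ∧
      2 * y + (W.a₁ : ℚbar) * x + (W.a₃ : ℚbar) ∈ V.nonunits ∧
      (W.a₁ : ℚbar) * y - (3 * x ^ 2 + 2 * (W.a₂ : ℚbar) * x + (W.a₄ : ℚbar)) ∈ V.nonunits := by
  rcases Q with _ | ⟨x, y, hxy⟩
  · exact absurd (Or.inl rfl) h
  · have hx : x ∈ V := by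
      by_contra hx
      exact h (Or.inr ⟨x, y, hxy, rfl, Or.inl hx⟩)
    have heq := (equation_iff _ _).mp hxy.1
    rw [baseChange_a₁, baseChange_a₂, baseChange_a₃, baseChange_a₄, baseChange_a₆] at heq
    have hy : y ∈ V := mem_of_equation (intCast_mem V _) (intCast_mem V _) (intCast_mem V _)
      (intCast_mem V _) (intCast_mem V _) hx heq
    have hns : ¬ (W.map (Int.castRingHom (IsLocalRing.ResidueField V))).toAffine.Nonsingular
        (IsLocalRing.residue V ⟨x, hx⟩) (IsLocalRing.residue V ⟨y, hy⟩) :=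
      fun hns => h (Or.inr ⟨x, y, hxy, rfl, Or.inr ⟨hx, hy, hns⟩⟩)
    have b1 : (W.map (Int.castRingHom (IsLocalRing.ResidueField V))).toAffine.a₁ =
        (W.a₁ : IsLocalRing.ResidueField V) := by simp
    have b2 : (W.map (Int.castRingHom (IsLocalRing.ResidueField V))).toAffine.a₂ =
        (W.a₂ : IsLocalRing.ResidueField V) := by simp
    have b3 : (W.map (Int.castRingHom (IsLocalRing.ResidueField V))).toAffine.a₃ =
        (W.a₃ : IsLocalRing.ResidueField V) := by simp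
    have b4 : (W.map (Int.castRingHom (IsLocalRing.ResidueField V))).toAffine.a₄ =
        (W.a₄ : IsLocalRing.ResidueField V) := by simp
    have b6 : (W.map (Int.castRingHom (IsLocalRing.ResidueField V))).toAffine.a₆ =
        (W.a₆ : IsLocalRing.ResidueField V) := by simp
    set x' : V := ⟨x, hx⟩ with hx'
    set y' : V := ⟨y, hy⟩ with hy'
    have heq' : y' ^ 2 + (W.a₁ : V) * x' * y' + (W.a₃ : V) * y' =
        x' ^ 3 + (W.a₂ : V) * x' ^ 2 + (W.a₄ : V) * x' + (W.a₆ : V) := by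
      apply Subtype.ext
      push_cast
      exact heq
    have hE : (W.map (Int.castRingHom (IsLocalRing.ResidueField V))).toAffine.Equation
        (IsLocalRing.residue V x') (IsLocalRing.residue V y') := by
      rw [equation_iff, b1, b2, b3, b4, b6]
      have h1 := congrArg (IsLocalRing.residue V) heq'
      simpa only [map_add, map_mul, map_pow, map_intCast] using h1
    refine ⟨x, y, hxy, hx, hy, rfl, hE, hns, ?_⟩
    rw [nonsingular_iff', not_and_or, b1, b2, b3, b4] at hns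
    have hns' := hns.resolve_left (not_not.mpr hE)
    push Not at hns'
    obtain ⟨h1, h2⟩ := hns'
    constructor
    · have h3 : IsLocalRing.residue V (2 * y' + (W.a₁ : V) * x' + (W.a₃ : V)) = 0 := by
        simpa only [map_add, map_mul, map_pow, map_intCast, map_ofNat] using h2
      rw [IsLocalRing.residue_eq_zero_iff, ← ValuationSubring.coe_mem_nonunits_iff] at h3
      convert h3 using 1
      push_cast
      rfl
    · have h3 : IsLocalRing.residue V
          ((W.a₁ : V) * y' - (3 * x' ^ 2 + 2 * (W.a₂ : V) * x' + (W.a₄ : V))) = 0 := by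
        simpa only [map_add, map_sub, map_mul, map_pow, map_intCast, map_ofNat] using h1
      rw [IsLocalRing.residue_eq_zero_iff, ← ValuationSubring.coe_mem_nonunits_iff] at h3
      convert h3 using 1
      push_cast
      rfl

/-- A prime at which some point does not lie on the identity component divides the
discriminant. -/
theorem dvd_Δ_of_not_inZero {ℓ : ℕ} (hℓ : ℓ.Prime) (hV : V.LiesOverPrime ℓ)
    (h : ¬ W.InZeroComponentAt V Q) : (ℓ : ℤ) ∣ W.Δ := by
  obtain ⟨x, y, hxy, hx, hy, rfl, hE, hns, -⟩ := singular_of_not_inZero h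
  by_contra hcon
  apply hns
  refine (equation_iff_nonsingular_of_Δ_ne_zero ?_).mp hE
  rw [WeierstrassCurve.map_Δ, eq_intCast]
  intro h0
  have hch := charP_residue hℓ hV
  exact hcon ((CharP.intCast_eq_zero_iff (IsLocalRing.ResidueField V) ℓ _).mp h0)

/-- A point whose `x`-coordinate does not reduce to the node lies on the identity component. -/
theorem inZero_of_split {e e' e'' : ℚbar} (hs : Split ((W.map (Int.castRingHom ℚ))⁄ℚbar) e e' e'')
    {ℓ : ℕ} (hℓ : ℓ.Prime) (hℓ2 : ℓ ≠ 2) (hV : V.LiesOverPrime ℓ)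
    (he : (valOf hℓ hV).Ge 0 e) (hee : (valOf hℓ hV).Gt 0 (e - e'))
    (hx : ¬ (valOf hℓ hV).Gt 0 (xc Q - e)) : W.InZeroComponentAt V Q := by
  by_contra hcon
  obtain ⟨x, y, hxy, hxV, hyV, rfl, -, -, h1, h2⟩ := singular_of_not_inZero hcon
  rw [xc_some] at hx
  set w := valOf hℓ hV with hw
  rw [← valOf_gt_zero_iff hℓ hV] at h1 h2
  rw [← valOf_ge_zero_iff hℓ hV] at hxV hyV
  have h4 : w.Is 0 (4 : ℚbar) := by
    have h := valOf_natCast_of_not_dvd (K := ℚbar) hℓ hV (n := 4) (by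
      intro h
      have h5 : ℓ ∣ 2 ^ 2 := by simpa using h
      exact hℓ2 ((Nat.prime_dvd_prime_iff_eq hℓ Nat.prime_two).mp (hℓ.dvd_of_dvd_pow h5)))
    exact_mod_cast h
  have hx0 : w.Is 0 (x - e) := by
    rw [not_gt_iff] at hx
    exact ⟨hx.1, le_antisymm hx.2 ((hxV.sub he).resolve_left hx.1)⟩
  have hx1 : w.Is 0 (x - e') := by
    have h5 : x - e' = (x - e) + (e - e') := by ring
    rw [h5]; exact hx0.add_gt hee
  have h5 := hs.eta_sq' (P := some x y hxy) (some_ne_zero _)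
  rw [eta_some, xc_some, baseChange_a₁, baseChange_a₃] at h5
  have h6 : w.Gt 0 ((2 * y + (W.a₁ : ℚbar) * x + (W.a₃ : ℚbar)) ^ 2) := by
    rw [pow_two]
    exact (h1.mul_ge h1.ge).mono (by linarith)
  rw [h5] at h6
  -- `x - e''` is in the maximal ideal
  have h7 : w.Gt 0 (x - e'') := by
    have h8 := (h6.of_mul h4).mono (show (0 : ℚ) ≤ 0 - 0 by linarith)
    exact (h8.of_mul (hx0.mul hx1)).mono (by linarith)
  -- the derivative
  have hb2 := hs.b₂
  have hb4 := hs.b₄
  rw [WeierstrassCurve.b₂, baseChange_a₁, baseChange_a₂] at hb2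
  rw [WeierstrassCurve.b₄, baseChange_a₁, baseChange_a₃, baseChange_a₄] at hb4
  have h8 : 4 * ((x - e) * (x - e')) =
      -4 * ((W.a₁ : ℚbar) * y - (3 * x ^ 2 + 2 * (W.a₂ : ℚbar) * x + (W.a₄ : ℚbar))) +
      2 * (W.a₁ : ℚbar) * (2 * y + (W.a₁ : ℚbar) * x + (W.a₃ : ℚbar)) -
      4 * ((x - e) + (x - e')) * (x - e'') := by
    linear_combination (-2 * x) * hb2 - 2 * hb4
  have h9 : w.Gt 0 (4 * ((x - e) * (x - e'))) := by
    rw [h8]
    have i1 : w.Ge 0 (-4 : ℚbar) := ge_four.neg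
    have i2 : w.Ge 0 (2 * (W.a₁ : ℚbar)) := (ge_two.mul (ge_intCast _)).mono (by linarith)
    have i3 : w.Ge 0 (4 * ((x - e) + (x - e'))) := by
      refine (ge_four.mul (hx0.ge.add hx1.ge)).mono (by linarith)
    exact (((i1.mul_gt h2).mono (by linarith)).add ((i2.mul_gt h1).mono (by linarith))).sub
      ((i3.mul_gt h7).mono (by linarith))
  have h10 : w.Is 0 (4 * ((x - e) * (x - e'))) := (h4.mul (hx0.mul hx1)).congr (by ring)
  exact absurd (h10.lt_of_gt h9) (lt_irrefl _)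

end

end Fermat.Agent.S12val
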