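import Mathlib

/-!
# Elementary arithmetic for the reduction S15 → S12
-/

set_option autoImplicit false

namespace Fermat.Agent.S12val

/-- `α + 16 β = γ` and `α ^ p + 16 β ^ p = γ ^ p` are incompatible for nonzero `α, β, γ`. -/
theorem no_real_solution {p : ℕ} (hp : 5 ≤ p) (hodd : Odd p) {α β γ : ℝ} (hα : α ≠ 0) (hβ : β ≠ 0)
    (hγ : γ ≠ 0) (h1 : α + 16 * β = γ) (h2 : α ^ p + 16 * β ^ p = γ ^ p) : False := by
  have hp0 : p ≠ 0 := by omega
  have h16 : (16 : ℝ) < 16 ^ p := by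
    calc (16 : ℝ) = 16 ^ 1 := by norm_num
      _ < 16 ^ p := pow_lt_pow_right₀ (by norm_num) (by omega)
  have h8 : (16 : ℝ) * 2 ^ (p - 1) < 16 ^ p := by
    have h3 : (16 : ℝ) ^ p = 2 ^ (p - 1) * (2 * 8 ^ p) := by
      have : (2 : ℝ) ^ (p - 1) * 2 = 2 ^ p := by
        rw [← pow_succ, Nat.sub_add_cancel (by omega)]
      rw [← mul_assoc, this, ← mul_pow]; norm_num
    rw [h3, mul_comm]
    have h4 : (16 : ℝ) < 2 * 8 ^ p := by
      have : (8 : ℝ) ^ 2 ≤ 8 ^ p := pow_le_pow_right₀ (by norm_num) (by omega)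
      linarith
    exact mul_lt_mul_of_pos_left h4 (by positivity)
  -- key: the case of positive `x, y`
  have key1 : ∀ x y z : ℝ, 0 < x → 0 < y → x + 16 * y = z → x ^ p + 16 * y ^ p < z ^ p := by
    intro x y z hx hy h
    have h3 : x ^ p + (16 * y) ^ p ≤ (x + 16 * y) ^ p := pow_add_pow_le hx.le (by positivity) hp0
    have h4 : 16 * y ^ p < (16 * y) ^ p := by
      rw [mul_pow]
      exact mul_lt_mul_of_pos_right h16 (by positivity)
    rw [← h]; linarith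
  have key2 : ∀ x y z : ℝ, 0 < x → 0 < z → x + z = 16 * y → 16 * y ^ p < x ^ p + z ^ p := by
    intro x y z hx hz h
    have hy : 0 < y := by linarith
    have h3 : (x + z) ^ p ≤ 2 ^ (p - 1) * (x ^ p + z ^ p) := add_pow_le hx.le hz.le p
    rw [h, mul_pow] at h3
    have h4 : 16 * 2 ^ (p - 1) * y ^ p < 16 ^ p * y ^ p :=
      mul_lt_mul_of_pos_right h8 (by positivity)
    have h5 : (2 : ℝ) ^ (p - 1) * (16 * y ^ p) < 2 ^ (p - 1) * (x ^ p + z ^ p) := by linarith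
    exact lt_of_mul_lt_mul_left h5 (by positivity)
  have hneg : ∀ x : ℝ, (-x) ^ p = - x ^ p := fun x => hodd.neg_pow x
  rcases lt_or_gt_of_ne hα with ha | ha <;> rcases lt_or_gt_of_ne hβ with hb | hb
  · have := key1 (-α) (-β) (-γ) (by linarith) (by linarith) (by linarith)
    rw [hneg, hneg, hneg] at this
    linarith
  · rcases lt_or_gt_of_ne hγ with hc | hc
    · -- `-α = 16 β + (-γ)`
      have := key1 (-γ) β (-α) (by linarith) hb (by linarith)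
      rw [hneg, hneg] at this
      linarith
    · -- `16 β = γ + (-α)`
      have := key2 (-α) β γ (by linarith) hc (by linarith)
      rw [hneg] at this
      linarith
  · rcases lt_or_gt_of_ne hγ with hc | hc
    · have := key2 α (-β) (-γ) ha (by linarith) (by linarith)
      rw [hneg, hneg] at this
      linarith
    · have := key1 γ (-β) α hc (by linarith) (by linarith)
      rw [hneg] at this
      linarith
  · have := key1 α β γ ha hb h1
    linarith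

/-- **Twist lemma.** Let `A + B = C` be pairwise coprime nonzero integers and `DA + DB = DC`
rational numbers with `DA = A m₁²`, ... .  Then up to a rational square factor, `DA, DB, DC` are
pairwise coprime integers. -/
theorem exists_scaling {A B C : ℤ} (hA : A ≠ 0) (hB : B ≠ 0) (hC : C ≠ 0)
    (hAB : IsCoprime A B) (hAC : IsCoprime A C) (hBC : IsCoprime B C)
    {DA DB DC m₁ m₂ m₃ : ℚ} (h₁ : m₁ ≠ 0) (h₂ : m₂ ≠ 0) (h₃ : m₃ ≠ 0)
    (hDA : DA = A * m₁ ^ 2) (hDB : DB = B * m₂ ^ 2) (hDC : DC = C * m₃ ^ 2) (hD : DA + DB = DC) :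
    ∃ (u : ℚ) (A' B' C' : ℤ), u ≠ 0 ∧ (A' : ℚ) = u ^ 2 * DA ∧ (B' : ℚ) = u ^ 2 * DB ∧
      (C' : ℚ) = u ^ 2 * DC ∧ IsCoprime A' B' ∧ IsCoprime A' C' ∧ IsCoprime B' C' := by
  have hDA0 : DA ≠ 0 := by rw [hDA]; positivity
  have hDB0 : DB ≠ 0 := by rw [hDB]; positivity
  have hDC0 : DC ≠ 0 := by rw [hDC]; positivity
  -- lowest terms of `DA / DB`
  set r : ℚ := DA / DB with hr
  have hr0 : r ≠ 0 := div_ne_zero hDA0 hDB0
  set A₀ : ℤ := r.num with hA₀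
  set B₀ : ℤ := (r.den : ℤ) with hB₀
  have hA₀0 : A₀ ≠ 0 := by rwa [hA₀, Rat.num_ne_zero]
  have hB₀0 : B₀ ≠ 0 := by rw [hB₀]; exact_mod_cast r.den_nz
  have hcop : IsCoprime A₀ B₀ := by
    rw [Int.isCoprime_iff_nat_coprime, hB₀, Int.natAbs_natCast]
    exact r.reduced
  have hrat : (A₀ : ℚ) / B₀ = DA / DB := by
    rw [← hr, hA₀, hB₀, Int.cast_natCast]
    exact Rat.num_div_den r
  have hA₀q : (A₀ : ℚ) ≠ 0 := by exact_mod_cast hA₀0
  have hB₀q : (B₀ : ℚ) ≠ 0 := by exact_mod_cast hB₀0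
  obtain ⟨t, ht⟩ : ∃ t : ℚ, t = DB / B₀ := ⟨_, rfl⟩
  have ht0 : t ≠ 0 := by rw [ht]; exact div_ne_zero hDB0 hB₀q
  have hDBt : DB = t * B₀ := by rw [ht]; field_simp
  have hDAt : DA = t * A₀ := by
    have : DA = (A₀ : ℚ) / B₀ * DB := by rw [hrat]; field_simp
    rw [this, hDBt]; field_simp
  have hDCt : DC = t * ((A₀ + B₀ : ℤ) : ℚ) := by rw [← hD, hDAt, hDBt]; push_cast; ring
  -- squarefree part of `|t|`
  obtain ⟨a, b, hab, hsq⟩ := Nat.sq_mul_squarefree (t.num.natAbs * t.den)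
  have hnum0 : t.num ≠ 0 := Rat.num_ne_zero.mpr ht0
  have hn0 : t.num.natAbs * t.den ≠ 0 :=
    mul_ne_zero (Int.natAbs_ne_zero.mpr hnum0) t.den_nz
  have hb0 : b ≠ 0 := by rintro rfl; rw [← hab] at hn0; simp at hn0
  have ha0 : a ≠ 0 := hsq.ne_zero
  set s : ℚ := b / t.den with hs
  have hden : (t.den : ℚ) ≠ 0 := by exact_mod_cast t.den_nz
  have hs0 : s ≠ 0 := div_ne_zero (by exact_mod_cast hb0) hden
  have htabs : |t| = a * s ^ 2 := by
    have h1 : |t| = (t.num.natAbs : ℚ) / t.den := by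
      conv_lhs => rw [← Rat.num_div_den t]
      rw [abs_div, Nat.abs_cast, Nat.cast_natAbs, Int.cast_abs]
    have h2 : ((b : ℚ)) ^ 2 * a = t.num.natAbs * t.den := by exact_mod_cast hab
    rw [h1, hs, div_pow]
    field_simp
    linarith
  obtain ⟨σ, hσ1, hσ⟩ : ∃ σ : ℤ, σ ^ 2 = 1 ∧ t = σ * (a * s ^ 2) := by
    rcases abs_choice t with h | h
    · exact ⟨1, by norm_num, by rw [← htabs, h]; simp⟩
    · exact ⟨-1, by norm_num, by rw [← htabs, h]; simp⟩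
  have hσ0 : σ ≠ 0 := by rintro rfl; simp at hσ1
  -- the key divisibility
  have key : ∀ (X X₀ : ℤ) (m : ℚ), X ≠ 0 → (t * X₀ = X * m ^ 2) → ∀ ℓ : ℕ, ℓ.Prime → ℓ ∣ a →
      (ℓ : ℤ) ∣ X₀ ∨ (ℓ : ℤ) ∣ X := by
    intro X X₀ m hX0 hX ℓ hℓ hℓa
    have hXq : (X : ℚ) ≠ 0 := by exact_mod_cast hX0
    have h1 : (((σ * a * X₀ * X : ℤ)) : ℚ) = (X * m / s) ^ 2 := by
      have : (X * m / s) ^ 2 = X * (X * m ^ 2) / s ^ 2 := by ring
      rw [this, ← hX, hσ]
      push_cast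
      field_simp
    have h2 : IsSquare (σ * a * X₀ * X : ℤ) := by
      rw [← Rat.isSquare_intCast_iff, h1]
      exact (even_two.isSquare_pow _)
    obtain ⟨k, hk⟩ := h2
    obtain ⟨a', rfl⟩ := hℓa
    have hℓ' : Prime (ℓ : ℤ) := Nat.prime_iff_prime_int.mp hℓ
    have h3 : (ℓ : ℤ) ∣ k * k := by
      rw [← hk]; push_cast
      exact ⟨σ * a' * X₀ * X, by ring⟩
    have h4 : (ℓ : ℤ) ∣ k := (hℓ'.dvd_mul.mp h3).elim id id
    obtain ⟨k', rfl⟩ := h4
    have h5 : σ * a' * X₀ * X = ℓ * (k' * k') := by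
      have hℓ0 : (ℓ : ℤ) ≠ 0 := hℓ'.ne_zero
      apply mul_left_cancel₀ hℓ0
      push_cast at hk
      linear_combination hk
    have h6 : (ℓ : ℤ) ∣ σ * a' * X₀ * X := ⟨_, h5⟩
    have h7 : ¬ (ℓ : ℤ) ∣ σ := by
      intro h
      have : (ℓ : ℤ) ∣ σ ^ 2 := dvd_pow h two_ne_zero
      rw [hσ1] at this
      exact hℓ'.not_dvd_one this
    have h8 : ¬ (ℓ : ℤ) ∣ (a' : ℤ) := by
      intro h
      have h9 : ℓ ∣ a' := by exact_mod_cast h
      obtain ⟨a'', rfl⟩ := h9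
      have := hsq ℓ ⟨a'', by ring⟩
      exact hℓ.one_lt.ne' (Nat.isUnit_iff.mp this)
    rcases hℓ'.dvd_mul.mp h6 with h | h
    · rcases hℓ'.dvd_mul.mp h with h | h
      · rcases hℓ'.dvd_mul.mp h with h | h
        · exact absurd h h7
        · exact absurd h h8
      · exact Or.inl h
    · exact Or.inr h
  have hC₀ : IsCoprime A₀ (A₀ + B₀) := by
    rw [show A₀ + B₀ = B₀ + A₀ * 1 by ring]
    exact hcop.add_mul_left_right 1
  have hC₀' : IsCoprime B₀ (A₀ + B₀) := by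
    rw [show A₀ + B₀ = A₀ + B₀ * 1 by ring]
    exact hcop.symm.add_mul_left_right 1
  have ha1 : a = 1 := by
    rw [Nat.eq_one_iff_not_exists_prime_dvd]
    intro ℓ hℓ hℓa
    have hℓ' : Prime (ℓ : ℤ) := Nat.prime_iff_prime_int.mp hℓ
    have nb : ∀ {x y : ℤ}, IsCoprime x y → (ℓ : ℤ) ∣ x → (ℓ : ℤ) ∣ y → False :=
      fun hxy hx hy => hℓ'.not_unit (hxy.isUnit_of_dvd' hx hy)
    have k1 := key A A₀ m₁ hA (by rw [← hDAt, hDA]) ℓ hℓ hℓa
    have k2 := key B B₀ m₂ hB (by rw [← hDBt, hDB]) ℓ hℓ hℓa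
    have k3 := key C (A₀ + B₀) m₃ hC (by rw [← hDCt, hDC]) ℓ hℓ hℓa
    rcases k1 with k1 | k1 <;> rcases k2 with k2 | k2 <;> rcases k3 with k3 | k3
    · exact nb hcop k1 k2
    · exact nb hcop k1 k2
    · exact nb hC₀ k1 k3
    · exact nb hBC k2 k3
    · exact nb hC₀' k2 k3
    · exact nb hAC k1 k3
    · exact nb hAB k1 k2
    · exact nb hAB k1 k2
  rw [ha1, Nat.cast_one, one_mul] at hσ
  have hσq : (σ : ℚ) ^ 2 = 1 := by exact_mod_cast hσ1
  have hσu : IsUnit σ := IsUnit.of_mul_eq_one σ (by rw [← pow_two, hσ1])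
  refine ⟨s⁻¹, σ * A₀, σ * B₀, σ * (A₀ + B₀), inv_ne_zero hs0, ?_, ?_, ?_, ?_, ?_, ?_⟩
  · rw [hDAt, hσ]; push_cast; field_simp
  · rw [hDBt, hσ]; push_cast; field_simp
  · rw [hDCt, hσ]; push_cast; field_simp
  · exact (isCoprime_mul_unit_left hσu A₀ B₀).mpr hcop
  · exact (isCoprime_mul_unit_left hσu _ _).mpr hC₀
  · exact (isCoprime_mul_unit_left hσu _ _).mpr hC₀'

end Fermat.Agent.S12val
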