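import Fermat.Agent.ECVal.Component
import Fermat.Agent.Isog.Quotient

/-!
# Components and subgroups of odd prime order

Let `N` be a subgroup of prime order `p` of a curve with multiplicative reduction.  Either all
elements of `N` reduce to nonsingular points or none of the nonzero ones does; in the second
case every coset `R + N` with `p R = 0` contains a point with nonsingular reduction.
-/

set_option autoImplicit false

namespace Fermat.Agent.S12val

open WeierstrassCurve WeierstrassCurve.Affine WeierstrassCurve.Affine.Point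
open FermatAgent.ECVal FermatAgent.ECVal.QVal Fermat.Agent.Isog

/-- Two related numbers in `[0, h]` are equal. -/
lemma Rel.eq_of_mem {h a b : ℚ} (hh : 0 < h) (H : QVal.Rel h a b) (ha : 0 ≤ a) (ha' : a ≤ h)
    (hb : 0 ≤ b) (hb' : b ≤ h) : a = b := by
  obtain ⟨j, hj | hj⟩ := H
  · have h1 : (-1 : ℚ) < j := by
      by_contra hcon
      rw [not_lt] at hcon
      nlinarith
    have h2 : (j : ℚ) < 1 := by
      by_contra hcon
      rw [not_lt] at hcon
      nlinarith
    have h3 : -1 < j := by exact_mod_cast h1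
    have h4 : j < 1 := by exact_mod_cast h2
    have h5 : j = 0 := by omega
    rw [hj, h5]; simp
  · have h1 : (-1 : ℚ) < j := by
      by_contra hcon
      rw [not_lt] at hcon
      nlinarith
    have h2 : (j : ℚ) < 2 := by
      by_contra hcon
      rw [not_lt] at hcon
      nlinarith
    have h3 : -1 < j := by exact_mod_cast h1
    have h4 : j < 2 := by exact_mod_cast h2
    rcases (by omega : j = 0 ∨ j = 1) with h5 | h5
    · rw [h5] at hj
      simp at hj
      linarith
    · rw [h5] at hj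
      push_cast at hj
      linarith

variable {K : Type*} [Field K] [DecidableEq K] {w : QVal K} {W : Affine K} {e D : K} {h : ℚ}

/-- If `m(R) = 0` then `m(R + S) = m(S)`. -/
lemma pcomp_add_of_eq_zero (N : NodeData w W e D h) {R S : W.Point} (hR : pcomp w e h R = 0) :
    pcomp w e h (R + S) = pcomp w e h S := by
  have h1 := pcomp_pair N R S
  rw [hR] at h1
  have h2 : QVal.Rel h (pcomp w e h (R + S)) (pcomp w e h S) := by
    rcases h1 with ⟨h1, -⟩ | ⟨h1, -⟩
    · rwa [zero_add] at h1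
    · rw [zero_sub] at h1
      exact h1.trans ⟨0, Or.inr (by simp)⟩
  exact Rel.eq_of_mem N.hh h2 (pcomp_nonneg N _) (pcomp_le N _) (pcomp_nonneg N _) (pcomp_le N _)

/-- If `m(R) = m(S)` then `m(R + S) = 0` or `m(R - S) = 0`. -/
lemma pcomp_eq_zero_of_eq (N : NodeData w W e D h) {R S : W.Point}
    (hRS : pcomp w e h R = pcomp w e h S) :
    pcomp w e h (R + S) = 0 ∨ pcomp w e h (R - S) = 0 := by
  have h1 := pcomp_pair N R S
  rw [hRS] at h1
  unfold QVal.PairRel at h1
  rw [sub_self] at h1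
  have hh := N.hh
  rcases h1 with ⟨-, h1⟩ | ⟨h1, -⟩
  · exact Or.inr (Rel.eq_of_mem N.hh h1 (pcomp_nonneg N _) (pcomp_le N _) le_rfl hh.le)
  · exact Or.inl (Rel.eq_of_mem N.hh h1 (pcomp_nonneg N _) (pcomp_le N _) le_rfl hh.le)

lemma pcomp_nsmul_eq_zero (N : NodeData w W e D h) {S : W.Point} (hS : pcomp w e h S = 0)
    (k : ℕ) : pcomp w e h (k • S) = 0 := by
  have h1 := pcomp_nsmul N S k
  rw [hS, mul_zero] at h1
  exact Rel.eq_of_mem N.hh h1 (pcomp_nonneg N _) (pcomp_le N _) le_rfl N.hh.le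

section subgroup

variable {G : AddSubgroup W.Point} [Fintype G] {p : ℕ}

/-- every element of a subgroup of prime order is a multiple of any nonzero element. -/
lemma exists_nsmul_eq {A : Type*} [AddCommGroup A] {G : AddSubgroup A} [Fintype G] {p : ℕ}
    (hp : p.Prime) (hcard : Fintype.card G = p) {S T : A} (hS : S ∈ G) (hS0 : S ≠ 0)
    (hT : T ∈ G) : ∃ k : ℕ, T = k • S := by
  have : Fact (Nat.card G).Prime := ⟨by rwa [Nat.card_eq_fintype_card, hcard]⟩
  have h1 : (⟨T, hT⟩ : G) ∈ AddSubgroup.zmultiples (⟨S, hS⟩ : G) := by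
    refine mem_zmultiples_of_prime_card (p := Nat.card G) rfl ?_
    intro h0
    exact hS0 (congrArg Subtype.val h0)
  rw [AddSubgroup.mem_zmultiples_iff] at h1
  obtain ⟨k, hk⟩ := h1
  refine ⟨(k % p).toNat, ?_⟩
  have h2 : (p : ℤ) • (⟨S, hS⟩ : G) = 0 := by
    rw [natCast_zsmul, ← hcard]; exact card_nsmul_eq_zero
  have hp0 : (p : ℤ) ≠ 0 := by exact_mod_cast hp.ne_zero
  have h3 : ((k % p).toNat : ℤ) = k % p := Int.toNat_of_nonneg (Int.emod_nonneg _ hp0)
  have h4 : ((k % p).toNat) • (⟨S, hS⟩ : G) = ⟨T, hT⟩ := by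
    rw [← hk, ← natCast_zsmul, h3]
    conv_rhs => rw [← Int.emod_add_mul_ediv k p]
    rw [add_zsmul, mul_comm, mul_zsmul, h2, smul_zero, add_zero]
  have h5 := congrArg Subtype.val h4
  simpa using h5.symm

/-- **Dichotomy.** -/
theorem dichotomy (N : NodeData w W e D h) (hp : p.Prime) (hcard : Fintype.card G = p) :
    (∀ S ∈ G, pcomp w e h S = 0) ∨ (∀ S ∈ G, S ≠ 0 → 0 < pcomp w e h S) := by
  by_cases H : ∃ S ∈ G, S ≠ 0 ∧ pcomp w e h S = 0
  · left
    obtain ⟨S, hS, hS0, hS1⟩ := H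
    intro T hT
    obtain ⟨k, rfl⟩ := exists_nsmul_eq hp hcard hS hS0 hT
    exact pcomp_nsmul_eq_zero N hS1 k
  · right
    intro S hS hS0
    have h1 := pcomp_nonneg N S
    refine lt_of_le_of_ne h1 ?_
    intro h2
    exact H ⟨S, hS, hS0, h2.symm⟩

lemma card_smul_eq_zero' {A : Type*} [AddCommGroup A] {G : AddSubgroup A} [Fintype G] {p : ℕ}
    (hcard : Fintype.card G = p) {S : A} (hS : S ∈ G) : p • S = 0 := by
  have : p • (⟨S, hS⟩ : G) = 0 := by rw [← hcard]; exact card_nsmul_eq_zero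
  simpa using congrArg Subtype.val this

/-- If no nonzero element of `G` has nonsingular reduction, every coset of `p`-torsion points
contains a point with nonsingular reduction. -/
theorem exists_add_pcomp_eq_zero (N : NodeData w W e D h) (hp : p.Prime) (hp2 : p ≠ 2)
    (hcard : Fintype.card G = p) (hoff : ∀ S ∈ G, S ≠ 0 → 0 < pcomp w e h S) {R : W.Point}
    (hR : p • R = 0) : ∃ S ∈ G, pcomp w e h (R + S) = 0 := by
  have hodd : Odd p := hp.odd_of_ne_two hp2
  have hh := N.hh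
  have hp0 : (0 : ℚ) < p := by exact_mod_cast hp.pos
  obtain ⟨S₀, hS₀, hS₀0⟩ : ∃ S ∈ G, S ≠ 0 := by
    have : 1 < Fintype.card G := by rw [hcard]; exact hp.one_lt
    obtain ⟨x, hx⟩ := Fintype.exists_ne_of_one_lt_card this 0
    exact ⟨x, x.2, fun h0 => hx (Subtype.ext h0)⟩
  obtain ⟨j₀, hj₀⟩ := pcomp_torsion N (card_smul_eq_zero' hcard hS₀)
  obtain ⟨j, hj⟩ := pcomp_torsion N hR
  have hpos := hoff S₀ hS₀ hS₀0
  have hle := pcomp_le N S₀
  -- `0 < j₀`, `2 j₀ ≤ p`
  have hj₀pos : 0 < j₀ := by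
    by_contra hcon
    rw [not_lt] at hcon
    have h1 : (j₀ : ℚ) ≤ 0 := by exact_mod_cast hcon
    have h2 : (p : ℚ) * pcomp w e h S₀ ≤ 0 := by rw [hj₀]; nlinarith
    nlinarith [mul_pos hp0 hpos]
  have hj₀le : 2 * j₀ ≤ p := by
    by_contra hcon
    rw [not_le] at hcon
    have h1 : (p : ℚ) < 2 * j₀ := by exact_mod_cast hcon
    nlinarith
  have hcop : IsCoprime j₀ (p : ℤ) := by
    refine (IsCoprime.symm ?_)
    rw [(Nat.prime_iff_prime_int.mp hp).coprime_iff_not_dvd]
    intro hdvd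
    have := Int.le_of_dvd hj₀pos hdvd
    have h2 := hp.two_le
    omega
  obtain ⟨a, b, hab⟩ := hcop
  -- `k = a j` modulo `p`
  set k : ℕ := (a * j % p).toNat with hk
  have hp0' : (p : ℤ) ≠ 0 := by exact_mod_cast hp.ne_zero
  have hk' : (k : ℤ) = a * j % p := Int.toNat_of_nonneg (Int.emod_nonneg _ hp0')
  obtain ⟨c, hc⟩ : ∃ c : ℤ, (k : ℤ) * j₀ = j + p * c := by
    refine ⟨-(b * j) - (a * j / p) * j₀, ?_⟩
    have h1 := Int.emod_add_mul_ediv (a * j) p
    rw [← hk'] at h1
    linear_combination j₀ * h1 + j * hab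
  have h1 := pcomp_nsmul N S₀ k
  have h2 : QVal.Rel h (k * pcomp w e h S₀) (pcomp w e h R) := by
    refine ⟨c, Or.inl ?_⟩
    have h3 : (k : ℚ) * j₀ = j + p * c := by exact_mod_cast hc
    apply mul_left_cancel₀ hp0.ne'
    linear_combination k * hj₀ - hj + 2 * h * h3
  have h3 := Rel.eq_of_mem hh (h1.trans h2) (pcomp_nonneg N _) (pcomp_le N _) (pcomp_nonneg N _)
    (pcomp_le N _)
  rcases pcomp_eq_zero_of_eq N h3.symm with h4 | h4
  · exact ⟨k • S₀, G.nsmul_mem hS₀ _, h4⟩
  · exact ⟨-(k • S₀), G.neg_mem (G.nsmul_mem hS₀ _), by rwa [← sub_eq_add_neg]⟩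

end subgroup

/-! ### Valuations from components -/

omit [DecidableEq K] in
lemma is_of_pcomp_mem {P : W.Point} (h0 : 0 < pcomp w e h P) (h1 : pcomp w e h P < h) :
    w.Is (pcomp w e h P) (xc P - e) := by
  rcases P with _ | ⟨x, y, hxy⟩
  · exact absurd h0 (by simp [pcomp])
  · rw [pcomp_some] at h0 h1 ⊢
    rw [xc_some]
    rcases QVal.comp_cases (w := w) (h := h) (x - e) with ⟨r, hr, hx⟩ | ⟨r, hr, hrh, hx⟩ | hx
    · rw [QVal.comp_of_is_nonpos hx hr] at h0
      exact absurd h0 (lt_irrefl _)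
    · rw [QVal.comp_of_is hx hr.le hrh.le]
      exact hx
    · exfalso
      by_cases hh : 0 < h
      · rw [QVal.comp_of_ge hh hx] at h1
        exact lt_irrefl _ h1
      · linarith

omit [DecidableEq K] in
lemma is_of_pcomp_eq_zero (hh : 0 < h) {P : W.Point} (hP : P ≠ 0) (h0 : pcomp w e h P = 0) :
    ∃ r : ℚ, r ≤ 0 ∧ w.Is r (xc P - e) := by
  obtain ⟨x, y, hxy, rfl⟩ := exists_some hP
  rw [pcomp_some] at h0
  rw [xc_some]
  rcases QVal.comp_cases (w := w) (h := h) (x - e) with ⟨r, hr, hx⟩ | ⟨r, hr, hrh, hx⟩ | hx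
  · exact ⟨r, hr, hx⟩
  · rw [QVal.comp_of_is hx hr.le hrh.le] at h0
    linarith
  · rw [QVal.comp_of_ge hh hx] at h0
    linarith

/-- The component of an odd torsion point is never the opposite one. -/
lemma pcomp_lt_of_torsion (N : NodeData w W e D h) {n : ℕ} (hn : Odd n) {P : W.Point}
    (hP : n • P = 0) : pcomp w e h P < h := by
  obtain ⟨j, hj⟩ := pcomp_torsion N hP
  refine lt_of_le_of_ne (pcomp_le N P) ?_
  intro h1
  rw [h1] at hj
  have h2 : (n : ℚ) = 2 * j := by
    apply mul_right_cancel₀ N.hh.ne'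
    linear_combination hj
  have h3 : (n : ℤ) = 2 * j := by exact_mod_cast h2
  obtain ⟨k, hk⟩ := hn
  omega

/-! ### The valuation of `X(φ(R)) - E` -/

section quotient

variable {G : AddSubgroup W.Point} [Fintype G] [DecidableEq G] {p : ℕ}

lemma Is_prod {ι : Type*} (s : Finset ι) (f : ι → K) (r : ι → ℚ) (hf : ∀ i ∈ s, w.Is (r i) (f i)) :
    w.Is (∑ i ∈ s, r i) (∏ i ∈ s, f i) := by
  classical
  induction s using Finset.induction_on with
  | empty => simpa using QVal.is_one
  | insert a s ha ih =>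
    rw [Finset.sum_insert ha, Finset.prod_insert ha]
    exact (hf a (Finset.mem_insert_self a s)).mul
      (ih fun i hi => hf i (Finset.mem_insert_of_mem hi))

/-- If no nonzero element of `G` has nonsingular reduction, and `R` is a point with nonsingular
reduction, then `X(φ(R)) - E` has valuation `≤ 0`. -/
theorem fN_val_of_off (N : NodeData w W e D h) (hp : p.Prime) (hp2 : p ≠ 2)
    (hcard : Fintype.card G = p) (hoff : ∀ S ∈ G, S ≠ 0 → 0 < pcomp w e h S) {R : W.Point}
    (hR0 : R ≠ 0) (hR : pcomp w e h R = 0) : ∃ r : ℚ, r ≤ 0 ∧ w.Is r (fN G e R) := by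
  have hodd : Odd p := hp.odd_of_ne_two hp2
  obtain ⟨r, hr, hrR⟩ := is_of_pcomp_eq_zero N.hh hR0 hR
  refine ⟨r, hr, ?_⟩
  have h1 : w.Is (∑ S ∈ nz G, pcomp w e h (S : W.Point)) (kap G e) := by
    refine Is_prod _ _ _ fun S hS => ?_
    have hS0 := coe_ne_zero_of_mem_nz G hS
    exact is_of_pcomp_mem (hoff S S.2 hS0)
      (pcomp_lt_of_torsion N hodd (card_smul_eq_zero' hcard S.2))
  have h2 : w.Is (∑ S ∈ nz G, pcomp w e h (S : W.Point))
      (∏ S ∈ nz G, (xc (R + (S : W.Point)) - e)) := by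
    refine Is_prod _ _ _ fun S hS => ?_
    have hS0 := coe_ne_zero_of_mem_nz G hS
    have h3 := pcomp_add_of_eq_zero N (S := (S : W.Point)) hR
    have h4 : 0 < pcomp w e h (R + (S : W.Point)) := by rw [h3]; exact hoff S S.2 hS0
    have h5 : pcomp w e h (R + (S : W.Point)) < h := by
      rw [h3]
      exact pcomp_lt_of_torsion N hodd (card_smul_eq_zero' hcard S.2)
    rw [← h3]
    exact is_of_pcomp_mem h4 h5
  have h3 : (∏ S : G, (xc (R + (S : W.Point)) - e)) =
      (xc R - e) * ∏ S ∈ nz G, (xc (R + (S : W.Point)) - e) := by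
    rw [← Finset.mul_prod_erase Finset.univ _ (Finset.mem_univ (0 : G))]
    simp
  rw [fN, h3, mul_div_assoc]
  have h4 := hrR.mul (h2.mul h1.inv)
  rw [← div_eq_mul_inv] at h4
  exact h4.congr (by ring)

end quotient

end Fermat.Agent.S12val
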