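import Fermat.Agent.S12.TwoAdic
import Fermat.Agent.S12.Arith

/-!
# The integral model of the quotient curve
-/

set_option autoImplicit false

namespace Fermat.Agent.S12val

open WeierstrassCurve WeierstrassCurve.Affine WeierstrassCurve.Affine.Point
open FermatAgent.ECVal FermatAgent.ECVal.QVal Fermat.Agent.Isog

local notation "ℚbar" => AlgebraicClosure ℚ

/-- An integral model of the quotient of the Frey curve. -/
structure Model (P : FreyPackage) (D : CofixedData P) where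
  A : ℤ
  B : ℤ
  m : ℤ
  n : ℤ
  u : ℚ
  hA : A ≠ 0
  hB : B ≠ 0
  hC : A + B ≠ 0
  cop : IsCoprime A B
  h32 : 32 ∣ B
  hm : 4 * m = B - 1 - A
  hn : 16 * n = -(A * B)
  t : Target D.N (((ftCurve m n).map (Int.castRingHom ℚ))⁄ℚbar) (0 : ℚbar)
    ((P.a : ℚbar) ^ P.p / 4) (-(P.b : ℚbar) ^ P.p / 4) 0 ((A : ℚbar) / 4) (-(B : ℚbar) / 4)
    (algebraMap ℚ ℚbar u)

section

variable {P : FreyPackage} (D : CofixedData P)

lemma odd_card : Odd (Fintype.card D.N) := by rw [D.card]; exact P.hp_odd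

/-- `∏ (x - e)` is rational for rational `e`. -/
lemma exists_rat_pi (q : ℚ) :
    ∃ r : ℚ, algebraMap ℚ ℚbar r ^ 2 = kap D.N (algebraMap ℚ ℚbar q) := by
  obtain ⟨r, hr⟩ := exists_rat_of_fixed (fun σ => Pi_galois D.stable σ
    (e := algebraMap ℚ ℚbar q) (σ.commutes q))
  exact ⟨r, by rw [hr, kap_eq_sq (odd_card D)]⟩

/-- The rational square roots of the three values of `κ`. -/
theorem exists_roots : ∃ r₀ rA rB : ℚ, r₀ ≠ 0 ∧ rA ≠ 0 ∧ rB ≠ 0 ∧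
    (r₀ : ℚbar) ^ 2 = kap D.N (0 : ℚbar) ∧
    (rA : ℚbar) ^ 2 = kap D.N ((P.a : ℚbar) ^ P.p / 4) ∧
    (rB : ℚbar) ^ 2 = kap D.N (-(P.b : ℚbar) ^ P.p / 4) := by
  have hs := freySplit P
  obtain ⟨T, hT⟩ := hs.exists_two
  obtain ⟨T', hT'⟩ := hs.rot.exists_two
  obtain ⟨T'', hT''⟩ := hs.rot.rot.exists_two
  have k0 := kap_ne_zero (odd_card D) hT
  have kA := kap_ne_zero (odd_card D) hT'
  have kB := kap_ne_zero (odd_card D) hT''
  obtain ⟨r₀, h0⟩ := exists_rat_pi D 0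
  obtain ⟨rA, hA⟩ := exists_rat_pi D ((P.a : ℚ) ^ P.p / 4)
  obtain ⟨rB, hB⟩ := exists_rat_pi D (-(P.b : ℚ) ^ P.p / 4)
  have e0 : algebraMap ℚ ℚbar 0 = 0 := _root_.map_zero _
  have eA : algebraMap ℚ ℚbar ((P.a : ℚ) ^ P.p / 4) = (P.a : ℚbar) ^ P.p / 4 := by
    simp
  have eB : algebraMap ℚ ℚbar (-(P.b : ℚ) ^ P.p / 4) = -(P.b : ℚbar) ^ P.p / 4 := by
    rw [map_div₀, _root_.map_neg, map_pow, map_intCast, map_ofNat]
  rw [e0] at h0
  rw [eA] at hA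
  rw [eB] at hB
  rw [eq_ratCast] at h0 hA hB
  refine ⟨r₀, rA, rB, ?_, ?_, ?_, h0, hA, hB⟩
  · rintro rfl
    apply k0
    rw [← h0]; simp
  · rintro rfl
    apply kA
    rw [← hA]; simp
  · rintro rfl
    apply kB
    rw [← hB]; simp

/-- The rational form of the relation between the three values. -/
theorem rat_relation {r₀ rA rB : ℚ} (h0 : (r₀ : ℚbar) ^ 2 = kap D.N (0 : ℚbar))
    (hA : (rA : ℚbar) ^ 2 = kap D.N ((P.a : ℚbar) ^ P.p / 4))
    (hB : (rB : ℚbar) ^ 2 = kap D.N (-(P.b : ℚbar) ^ P.p / 4)) :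
    ((P.a : ℚ) ^ P.p / 4) ^ P.p * rB ^ 4 + ((P.b : ℚ) ^ P.p / 4) ^ P.p * rA ^ 4 =
      ((P.c : ℚ) ^ P.p / 4) ^ P.p * r₀ ^ 4 := by
  have h := (freySplit P).relation (N := D.N) (odd_card D)
  rw [D.card, ← h0, ← hA, ← hB] at h
  have h1 : ((P.a : ℚbar) ^ P.p / 4 - 0) = (P.a : ℚbar) ^ P.p / 4 := by ring
  have hc : (P.c : ℚbar) ^ P.p = (P.a : ℚbar) ^ P.p + (P.b : ℚbar) ^ P.p := by
    exact_mod_cast P.hFLT.symm
  have h2 : (-(P.b : ℚbar) ^ P.p / 4 - (P.a : ℚbar) ^ P.p / 4) = -((P.c : ℚbar) ^ P.p / 4) := by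
    rw [hc]; ring
  have h3 : ((0 : ℚbar) - -(P.b : ℚbar) ^ P.p / 4) = (P.b : ℚbar) ^ P.p / 4 := by ring
  rw [h1, h2, h3, P.hp_odd.neg_pow] at h
  have h4 : ((((P.a : ℚ) ^ P.p / 4) ^ P.p * rB ^ 4 + ((P.b : ℚ) ^ P.p / 4) ^ P.p * rA ^ 4 : ℚ) :
      ℚbar) = ((((P.c : ℚ) ^ P.p / 4) ^ P.p * r₀ ^ 4 : ℚ) : ℚbar) := by
    push_cast
    linear_combination h
  exact_mod_cast h4

lemma four_mul_pow {x : ℚ} {k p : ℕ} (hk : p = 2 * k + 1) :
    4 * (x / 4) ^ p = x * ((x / 4) ^ k) ^ 2 := by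
  rw [hk]
  ring

/-- congruence modulo `4` for odd integers that differ by a rational square. -/
lemma four_dvd_sub_of_sq {A A' : ℤ} {s : ℚ} (hA : ¬ 2 ∣ A) (hA' : ¬ 2 ∣ A')
    (h : (A' : ℚ) = A * s ^ 2) : (4 : ℤ) ∣ A' - A := by
  have h1 : A' * (s.den : ℤ) ^ 2 = A * s.num ^ 2 := by
    have h2 : (A' : ℚ) * (s.den : ℚ) ^ 2 = A * (s.num : ℚ) ^ 2 := by
      rw [h, ← Rat.mul_den_eq_num s]
      ring
    exact_mod_cast h2
  have hcop : IsCoprime s.num (s.den : ℤ) := by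
    rw [Int.isCoprime_iff_gcd_eq_one]
    exact s.reduced
  have hnum : ¬ 2 ∣ s.num := by
    intro h2
    have h3 : (2 : ℤ) ∣ A' * (s.den : ℤ) ^ 2 := by
      rw [h1]
      exact (dvd_pow h2 (by norm_num)).mul_left _
    rcases Int.prime_two.dvd_or_dvd h3 with h4 | h4
    · exact hA' h4
    · exact Int.prime_two.not_isUnit (hcop.isUnit_of_dvd' h2 (Int.prime_two.dvd_of_dvd_pow h4))
  have hden : ¬ (2 : ℤ) ∣ (s.den : ℤ) := by
    intro h2
    have h3 : (2 : ℤ) ∣ A * s.num ^ 2 := by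
      rw [← h1]
      exact (dvd_pow h2 (by norm_num)).mul_left _
    rcases Int.prime_two.dvd_or_dvd h3 with h4 | h4
    · exact hA h4
    · exact Int.prime_two.not_isUnit (hcop.isUnit_of_dvd' (Int.prime_two.dvd_of_dvd_pow h4) h2)
  obtain ⟨x, hx⟩ : ∃ x : ℤ, s.num = 2 * x + 1 := ⟨s.num / 2, by omega⟩
  obtain ⟨y, hy⟩ : ∃ y : ℤ, (s.den : ℤ) = 2 * y + 1 := ⟨(s.den : ℤ) / 2, by omega⟩
  rw [hx, hy] at h1
  refine ⟨A * (x ^ 2 + x) - A' * (y ^ 2 + y), ?_⟩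
  linear_combination h1

lemma isCoprime_of_gcd {x y : ℤ} (h : gcd x y = 1) : IsCoprime x y :=
  (gcd_isUnit_iff x y).mp (by rw [h]; exact isUnit_one)

lemma not_two_dvd_of_is {V : ValuationSubring ℚbar} (hV : V.LiesOverPrime 2) {A : ℤ}
    (h : (valOf Nat.prime_two hV).Is 0 (A : ℚbar)) : ¬ (2 : ℤ) ∣ A := by
  rintro ⟨x, rfl⟩
  have h1 : (valOf Nat.prime_two hV).Gt 0 (((2 * x : ℤ)) : ℚbar) := by
    push_cast
    have h2 := (valOf_prime Nat.prime_two hV).gt (show (0 : ℚ) < 1 by norm_num)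
    push_cast at h2
    exact (h2.mul_ge (ge_intCast x)).mono (by linarith)
  exact absurd (h.lt_of_gt h1) (lt_irrefl _)

lemma dvd_of_is {V : ValuationSubring ℚbar} (hV : V.LiesOverPrime 2) {B : ℤ} {β : ℚ}
    (h : (valOf Nat.prime_two hV).Is β (B : ℚbar)) (hβ : 5 ≤ β) : (32 : ℤ) ∣ B := by
  have : Fact (Nat.Prime 2) := ⟨Nat.prime_two⟩
  have hB0 : B ≠ 0 := by
    rintro rfl
    exact h.1 (by simp)
  have hB : (B : ℚ) ≠ 0 := by exact_mod_cast hB0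
  have h1 := valOf_ratCast Nat.prime_two hV hB
  rw [map_intCast, padicValRat.of_int] at h1
  have h2 : (5 : ℚ) ≤ padicValInt 2 B := by
    have h3 := h1.2
    rw [h.2] at h3
    rw [h3] at hβ
    exact_mod_cast hβ
  have h3 : 5 ≤ padicValInt 2 B := by exact_mod_cast h2
  have h4 := (padicValInt_dvd_iff (p := 2) 5 B).mpr (Or.inr h3)
  norm_num at h4
  exact h4

/-- Existence of the integral model of the quotient. -/
theorem exists_model : Nonempty (Model P D) := by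
  obtain ⟨r₀, rA, rB, h0, hA, hB, k0, kA, kB⟩ := exists_roots D
  have hrel := rat_relation D k0 kA kB
  obtain ⟨k, hk⟩ := P.hp_odd
  have hp0 : P.p ≠ 0 := P.hp0
  have ha0 : (P.a : ℚ) ≠ 0 := by exact_mod_cast P.ha0
  have hb0 : (P.b : ℚ) ≠ 0 := by exact_mod_cast P.hb0
  have hc0 : (P.c : ℚ) ≠ 0 := by exact_mod_cast P.hc0
  have hcab : IsCoprime (P.a ^ P.p) (P.b ^ P.p) := (isCoprime_of_gcd P.hgcdab).pow
  have hcac : IsCoprime (P.a ^ P.p) (P.c ^ P.p) := (isCoprime_of_gcd P.hgcdac).pow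
  have hcbc : IsCoprime (P.b ^ P.p) (P.c ^ P.p) := (isCoprime_of_gcd P.hgcdbc).pow
  have hD : 4 * ((P.a : ℚ) ^ P.p / 4) ^ P.p * (rB / (rA * r₀)) ^ 2 +
      4 * ((P.b : ℚ) ^ P.p / 4) ^ P.p * (rA / (rB * r₀)) ^ 2 =
      4 * ((P.c : ℚ) ^ P.p / 4) ^ P.p * (r₀ / (rA * rB)) ^ 2 := by
    generalize ((P.a : ℚ) ^ P.p / 4) ^ P.p = X at *
    generalize ((P.b : ℚ) ^ P.p / 4) ^ P.p = Y at *
    generalize ((P.c : ℚ) ^ P.p / 4) ^ P.p = Z at *
    field_simp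
    linear_combination hrel
  obtain ⟨u, A', B', C', hu, hA', hB', hC', cAB, cAC, cBC⟩ :=
    exists_scaling (A := P.a ^ P.p) (B := P.b ^ P.p) (C := P.c ^ P.p)
      (DA := 4 * ((P.a : ℚ) ^ P.p / 4) ^ P.p * (rB / (rA * r₀)) ^ 2)
      (DB := 4 * ((P.b : ℚ) ^ P.p / 4) ^ P.p * (rA / (rB * r₀)) ^ 2)
      (DC := 4 * ((P.c : ℚ) ^ P.p / 4) ^ P.p * (r₀ / (rA * rB)) ^ 2)
      (m₁ := ((P.a : ℚ) ^ P.p / 4) ^ k * (rB / (rA * r₀)))
      (m₂ := ((P.b : ℚ) ^ P.p / 4) ^ k * (rA / (rB * r₀)))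
      (m₃ := ((P.c : ℚ) ^ P.p / 4) ^ k * (r₀ / (rA * rB)))
      (pow_ne_zero _ P.ha0) (pow_ne_zero _ P.hb0) (pow_ne_zero _ P.hc0) hcab hcac hcbc
      (by positivity) (by positivity) (by positivity)
      (by rw [four_mul_pow hk]; push_cast; ring) (by rw [four_mul_pow hk]; push_cast; ring)
      (by rw [four_mul_pow hk]; push_cast; ring) hD
  have hA'0 : A' ≠ 0 := by
    intro h
    rw [h] at hA'
    push_cast at hA'
    exact absurd hA'.symm (by positivity)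
  have hB'0 : B' ≠ 0 := by
    intro h
    rw [h] at hB'
    push_cast at hB'
    exact absurd hB'.symm (by positivity)
  have hC'0 : C' ≠ 0 := by
    intro h
    rw [h] at hC'
    push_cast at hC'
    exact absurd hC'.symm (by positivity)
  have hABC : A' + B' = C' := by
    have h1 : (A' : ℚ) + B' = C' := by
      rw [hA', hB', hC']; linear_combination u ^ 2 * hD
    exact_mod_cast h1
  -- the situation at `2`
  obtain ⟨V, hV⟩ := Frob.exists_liesOverPrime 2 Nat.prime_two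
  obtain ⟨v0, vA, vB⟩ := two_adic D hV
  obtain ⟨kb, hkb, hb⟩ := val_b_pow (P := P) hV
  have ha := is_zero_of_odd hV (not_two_dvd_a_pow P)
  have hc := is_zero_of_odd hV (not_two_dvd_c_pow P)
  have h4 := is_four_two hV
  have eA : (A' : ℚbar) = (u : ℚbar) ^ 2 * (4 * ((P.a : ℚbar) ^ P.p / 4) ^ P.p *
      (kap D.N (-(P.b : ℚbar) ^ P.p / 4) / (kap D.N ((P.a : ℚbar) ^ P.p / 4) *
        kap D.N (0 : ℚbar)))) := by
    have h1 := congrArg (Rat.cast : ℚ → ℚbar) hA'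
    push_cast at h1
    rw [h1, ← k0, ← kA, ← kB]
    ring
  have eB : (B' : ℚbar) = (u : ℚbar) ^ 2 * (4 * ((P.b : ℚbar) ^ P.p / 4) ^ P.p *
      (kap D.N ((P.a : ℚbar) ^ P.p / 4) / (kap D.N (-(P.b : ℚbar) ^ P.p / 4) *
        kap D.N (0 : ℚbar)))) := by
    have h1 := congrArg (Rat.cast : ℚ → ℚbar) hB'
    push_cast at h1
    rw [h1, ← k0, ← kA, ← kB]
    ring
  have eC : (C' : ℚbar) = (u : ℚbar) ^ 2 * (4 * ((P.c : ℚbar) ^ P.p / 4) ^ P.p *
      (kap D.N (0 : ℚbar) / (kap D.N ((P.a : ℚbar) ^ P.p / 4) *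
        kap D.N (-(P.b : ℚbar) ^ P.p / 4)))) := by
    have h1 := congrArg (Rat.cast : ℚ → ℚbar) hC'
    push_cast at h1
    rw [h1, ← k0, ← kA, ← kB]
    ring
  have huK : (u : ℚbar) ≠ 0 := by exact_mod_cast hu
  obtain ⟨α, hα⟩ : ∃ α, (valOf Nat.prime_two hV).Is α ((u : ℚbar) ^ 2) :=
    ⟨_, Is.of_ne (pow_ne_zero 2 huK)⟩
  push_cast at ha hb hc
  have ha4 : (valOf Nat.prime_two hV).Is (-2) ((P.a : ℚbar) ^ P.p / 4) := by
    rw [div_eq_mul_inv]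
    exact (ha.mul h4.inv).congr (by ring)
  have hc4 : (valOf Nat.prime_two hV).Is (-2) ((P.c : ℚbar) ^ P.p / 4) := by
    rw [div_eq_mul_inv]
    exact (hc.mul h4.inv).congr (by ring)
  have hb4 : (valOf Nat.prime_two hV).Is (P.p * kb - 2) ((P.b : ℚbar) ^ P.p / 4) := by
    rw [div_eq_mul_inv]
    exact (hb.mul h4.inv).congr (by ring)
  have wA : (valOf Nat.prime_two hV).Is α (A' : ℚbar) := by
    rw [eA, div_eq_mul_inv (kap D.N _)]
    exact (hα.mul ((h4.mul (ha4.pow P.p)).mul (vB.mul (vA.mul v0).inv))).congr (by ring)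
  have wC : (valOf Nat.prime_two hV).Is α (C' : ℚbar) := by
    rw [eC, div_eq_mul_inv (kap D.N _)]
    exact (hα.mul ((h4.mul (hc4.pow P.p)).mul (v0.mul (vA.mul vB).inv))).congr (by ring)
  have hα0 : α = 0 := eq_zero_of_coprime cAC wA wC
  subst hα0
  have wB : (valOf Nat.prime_two hV).Is (4 + P.p * (P.p * kb - 4)) (B' : ℚbar) := by
    rw [eB, div_eq_mul_inv (kap D.N _)]
    exact (hα.mul ((h4.mul (hb4.pow P.p)).mul (vA.mul (vB.mul v0).inv))).congr (by ring)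
  have hp5 : (5 : ℚ) ≤ P.p := by exact_mod_cast P.hp5
  have hkb' : (1 : ℚ) ≤ kb := by exact_mod_cast hkb
  have h32 : (32 : ℤ) ∣ B' := by
    refine dvd_of_is hV wB ?_
    have h1 : (1 : ℚ) ≤ P.p * kb - 4 := by nlinarith
    nlinarith
  have hAodd : ¬ (2 : ℤ) ∣ A' := not_two_dvd_of_is hV wA
  have h4A : (4 : ℤ) ∣ A' - P.a ^ P.p := by
    refine four_dvd_sub_of_sq (s := u * (((P.a : ℚ) ^ P.p / 4) ^ k * (rB / (rA * r₀))))
      (not_two_dvd_a_pow P) hAodd ?_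
    rw [hA', four_mul_pow hk]
    push_cast
    ring
  have h4a := Frey.four_dvd_a_pow_add_one P
  have hdm : (4 : ℤ) ∣ B' - 1 - A' := by omega
  have hdn : (16 : ℤ) ∣ -(A' * B') :=
    (((by norm_num : (16 : ℤ) ∣ 32).trans h32).mul_left A').neg_right
  obtain ⟨m, hm⟩ := hdm
  obtain ⟨n, hn⟩ := hdn
  refine ⟨{ A := A', B := B', m := m, n := n, u := u, hA := hA'0, hB := hB'0,
            hC := by rw [hABC]; exact hC'0, cop := cAB, h32 := h32, hm := hm.symm,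
            hn := hn.symm, t := ?_ }⟩
  refine { src := freySplit P, odd := odd_card D,
           tgt := ft_split hm.symm hn.symm hA'0 hB'0 (by rw [hABC]; exact hC'0),
           u_ne := ?_, h' := ?_, h'' := ?_ }
  · rw [eq_ratCast]; exact huK
  · intro T' hT'
    obtain ⟨T, hT⟩ := (freySplit P).exists_two
    rw [(freySplit P).fN_two (odd_card D) hT hT', D.card, eA, eq_ratCast, sub_zero, sub_zero]
    ring
  · intro T'' hT''
    obtain ⟨T, hT⟩ := (freySplit P).exists_two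
    rw [(freySplit P).swap'.fN_two (odd_card D) hT hT'', D.card, eB, eq_ratCast, sub_zero,
      sub_zero]
    have h1 : (-(P.b : ℚbar) ^ P.p / 4) ^ P.p = -((P.b : ℚbar) ^ P.p / 4) ^ P.p := by
      rw [neg_div, P.hp_odd.neg_pow]
    rw [h1]
    ring

end

end Fermat.Agent.S12val
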