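import Fermat.Agent.S12.Comp
import Fermat.Agent.Isog.Galois
import Fermat.Agent.S13_NoRationalPoint
import Fermat.Agent.S13_Eisenstein
import Fermat.Agent.ECVal.QbarVal

/-!
# Galois stable subgroups of order `p` and components

If the nonzero elements of a Galois stable subgroup of odd prime order `p` do not lie on the
identity component at a prime `q`, then `p` divides the number of components.
-/

set_option autoImplicit false

namespace Fermat.Agent.S12val

open WeierstrassCurve WeierstrassCurve.Affine WeierstrassCurve.Affine.Point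
open FermatAgent.ECVal FermatAgent.ECVal.QVal Fermat.Agent.Isog

local notation "ℚbar" => AlgebraicClosure ℚ

section

variable {K : Type*} [Field K] {w : QVal K}

lemma Gt_sum {ι : Type*} (s : Finset ι) (f : ι → K) (r : ℚ) (hf : ∀ i ∈ s, w.Gt r (f i)) :
    w.Gt r (∑ i ∈ s, f i) := by
  classical
  induction s using Finset.induction_on with
  | empty => exact Or.inl Finset.sum_empty
  | insert a s ha ih =>
    rw [Finset.sum_insert ha]
    exact (hf a (Finset.mem_insert_self a s)).add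
      (ih fun i hi => hf i (Finset.mem_insert_of_mem hi))

variable [DecidableEq K] {W : Affine K} {e D : K} {h : ℚ}
  {G : AddSubgroup W.Point} [Fintype G] [DecidableEq G] {p : ℕ}

/-- In the off case, the sum of the `x - e` has the valuation of its smallest term. -/
theorem exists_min_of_off (N : NodeData w W e D h) (hp : p.Prime) (hp2 : p ≠ 2)
    (hcard : Fintype.card G = p) (hoff : ∀ S ∈ G, S ≠ 0 → 0 < pcomp w e h S) :
    ∃ S ∈ G, S ≠ 0 ∧ w.Is (pcomp w e h S)
      (∑ x ∈ (nz G).image (fun S : G => xc (S : W.Point)), (x - e)) := by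
  have hodd : Odd p := hp.odd_of_ne_two hp2
  have hne : (nz G).Nonempty := by
    have : 1 < Fintype.card G := by rw [hcard]; exact hp.one_lt
    obtain ⟨x, hx⟩ := Fintype.exists_ne_of_one_lt_card this 0
    exact ⟨x, by simpa using hx⟩
  obtain ⟨S₁, hS₁, hmin⟩ := Finset.exists_min_image (nz G)
    (fun S : G => pcomp w e h (S : W.Point)) hne
  have hS₁0 := coe_ne_zero_of_mem_nz G hS₁
  refine ⟨S₁, S₁.2, hS₁0, ?_⟩
  have hmem : xc (S₁ : W.Point) ∈ (nz G).image (fun S : G => xc (S : W.Point)) :=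
    Finset.mem_image_of_mem _ hS₁
  rw [← Finset.add_sum_erase _ _ hmem]
  refine (is_of_pcomp_mem (hoff _ S₁.2 hS₁0)
      (pcomp_lt_of_torsion N hodd (card_smul_eq_zero' hcard S₁.2))).add_gt ?_
  refine Gt_sum _ _ _ fun x hx => ?_
  rw [Finset.mem_erase, Finset.mem_image] at hx
  obtain ⟨hx1, S, hS, rfl⟩ := hx
  have hS0 := coe_ne_zero_of_mem_nz G hS
  have h1 : w.Is (pcomp w e h (S : W.Point)) (xc (S : W.Point) - e) :=
    is_of_pcomp_mem (hoff _ S.2 hS0)
      (pcomp_lt_of_torsion N hodd (card_smul_eq_zero' hcard S.2))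
  refine h1.gt (lt_of_le_of_ne (hmin S hS) ?_)
  intro h2
  rcases pcomp_eq_zero_of_eq N h2 with h3 | h3
  · by_cases h4 : (S₁ : W.Point) + S = 0
    · apply hx1
      rw [eq_neg_of_add_eq_zero_right h4, xc_neg]
    · exact (hoff _ (G.add_mem S₁.2 S.2) h4).ne' h3
  · by_cases h4 : (S₁ : W.Point) - S = 0
    · apply hx1
      rw [sub_eq_zero.mp h4]
    · exact (hoff _ (G.sub_mem S₁.2 S.2) h4).ne' h3

end

section galois

variable {R : Type*} {S : Type*} {K : Type*} [CommRing R] [CommRing S] [Field K]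
  [DecidableEq K] {W : Affine R} [Algebra R S] [Algebra R K] [Algebra S K]
  [IsScalarTower R S K] {N : AddSubgroup (W⁄K).Point} [Fintype N] [DecidableEq N]

lemma sum_galois (hN : ∀ σ : K ≃ₐ[S] K, ∀ P ∈ N, σ • P ∈ N) (σ : K ≃ₐ[S] K) {e : K}
    (he : σ e = e) :
    σ (∑ x ∈ (nz N).image (fun S : N => xc (S : (W⁄K).Point)), (x - e)) =
      ∑ x ∈ (nz N).image (fun S : N => xc (S : (W⁄K).Point)), (x - e) := by
  rw [map_sum]
  refine Finset.sum_bij (fun x _ => σ x) ?_ ?_ ?_ ?_
  · intro x hx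
    rw [Finset.mem_image] at hx ⊢
    obtain ⟨P, hP, rfl⟩ := hx
    exact ⟨permN hN σ P, (permN_mem_nz hN σ P).mpr hP, by rw [coe_permN, xc_smul]⟩
  · intro x _ y _ h
    exact σ.injective h
  · intro x hx
    rw [Finset.mem_image] at hx
    obtain ⟨P, hP, rfl⟩ := hx
    refine ⟨xc (σ⁻¹ • (P : (W⁄K).Point)), ?_, ?_⟩
    · rw [Finset.mem_image]
      exact ⟨permN hN σ⁻¹ P, (permN_mem_nz hN σ⁻¹ P).mpr hP, by rw [coe_permN]⟩
    · rw [← xc_smul, smul_inv_smul]
  · intro x _
    rw [map_sub, he]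

end galois

section rational

variable [DecidableEq ℚbar] {W : WeierstrassCurve ℚ} {G : AddSubgroup (W⁄ℚbar).Point} [Fintype G]
  [DecidableEq G] {p : ℕ}

/-- If a Galois stable subgroup of odd prime order `p` is not contained in the identity
component, then `p` divides the valuation `h` of the discriminant. -/
theorem dvd_of_off {q : ℕ} (hq : q.Prime) {A : ValuationSubring ℚbar} (hA : A.LiesOverPrime q)
    {e : ℚ} {D : ℚbar} {h : ℤ}
    (N : NodeData (valOf hq hA) (W⁄ℚbar) (algebraMap ℚ ℚbar e) D h)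
    (hp : p.Prime) (hp2 : p ≠ 2) (hcard : Fintype.card G = p)
    (hG : ∀ σ : ℚbar ≃ₐ[ℚ] ℚbar, ∀ P ∈ G, σ • P ∈ G)
    (hoff : ∀ S ∈ G, S ≠ 0 → 0 < pcomp (valOf hq hA) (algebraMap ℚ ℚbar e) h S) :
    (p : ℤ) ∣ h := by
  obtain ⟨S, hS, hS0, hIs⟩ := exists_min_of_off N hp hp2 hcard hoff
  have hodd : Odd p := hp.odd_of_ne_two hp2
  obtain ⟨r, hr⟩ := S13five.exists_rat_of_fixed
    (fun σ => sum_galois (W := W) hG σ (e := algebraMap ℚ ℚbar e) (σ.commutes e))
  rw [← hr] at hIs
  have hr0 : r ≠ 0 := by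
    rintro rfl
    exact hIs.1 (map_zero _)
  have h1 := valOf_ratCast hq hA hr0
  have h2 : pcomp (valOf hq hA) (algebraMap ℚ ℚbar e) h S = (padicValRat q r : ℚ) := by
    rw [← hIs.2, h1.2]
  obtain ⟨j, hj⟩ := pcomp_torsion N (card_smul_eq_zero' hcard hS)
  have hpos := hoff S hS hS0
  have hlt := pcomp_lt_of_torsion N hodd (card_smul_eq_zero' hcard hS)
  rw [h2] at hj hpos hlt
  have hp0 : (0 : ℚ) < p := by exact_mod_cast hp.pos
  have hh := N.hh
  have h3 : (p : ℤ) * padicValRat q r = j * (2 * h) := by exact_mod_cast hj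
  have h4 : (0 : ℚ) < j := by
    by_contra hcon
    rw [not_lt] at hcon
    nlinarith [mul_pos hp0 hpos]
  have h5 : (2 * j : ℚ) < p := by
    by_contra hcon
    rw [not_lt] at hcon
    nlinarith [mul_lt_mul_of_pos_left hlt hp0]
  have h4' : 0 < j := by exact_mod_cast h4
  have h5' : 2 * j < p := by exact_mod_cast h5
  have h6 : (p : ℤ) ∣ j * 2 * h := ⟨_, by rw [h3]; ring⟩
  have hpp : Prime (p : ℤ) := Nat.prime_iff_prime_int.mp hp
  rcases hpp.dvd_or_dvd h6 with h7 | h7
  · have := Int.le_of_dvd (by omega) h7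
    omega
  · exact h7

end rational

end Fermat.Agent.S12val
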