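import Fermat.Agent.S12.FreyType
import Fermat.Agent.Isog.FreyData

/-!
# The subgroup lies on the identity component
-/

set_option autoImplicit false

namespace Fermat.Agent.S12val

open WeierstrassCurve WeierstrassCurve.Affine WeierstrassCurve.Affine.Point
open FermatAgent.ECVal FermatAgent.ECVal.QVal Fermat.Agent.Isog

local notation "ℚbar" => AlgebraicClosure ℚ

section basic

variable {K : Type*} [Field K] {w : QVal K}

/-- coprime integers of the same valuation are units. -/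
lemma eq_zero_of_coprime {X Y : ℤ} (h : IsCoprime X Y) {α : ℚ} (hX : w.Is α (X : K))
    (hY : w.Is α (Y : K)) : α = 0 := by
  have h0 : 0 ≤ α := hX.le_of_ge (ge_intCast X)
  rcases h0.eq_or_lt with h1 | h1
  · exact h1.symm
  · exfalso
    obtain ⟨a, b, hab⟩ := h
    have h2 : ((a : K)) * X + b * Y = 1 := by
      have h4 := congrArg (Int.cast : ℤ → K) hab
      push_cast at h4
      exact h4
    have h3 : w.Gt 0 (1 : K) := by
      rw [← h2]
      exact (((ge_intCast a).mul_gt (hX.gt h1)).mono (by linarith)).add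
        (((ge_intCast b).mul_gt (hY.gt h1)).mono (by linarith))
    exact absurd (is_one.lt_of_gt h3) (lt_irrefl _)

end basic

section target

variable [DecidableEq ℚbar] {W : Affine ℚbar} {N : AddSubgroup W.Point} [Fintype N] [DecidableEq N]
  {W' : WeierstrassCurve ℤ} {e e' e'' E E' E'' u : ℚbar} {p ℓ : ℕ}

lemma dvd_of_gt (hℓ : ℓ.Prime) {V : ValuationSubring ℚbar} (hV : V.LiesOverPrime ℓ) {Z : ℤ}
    (h : (valOf hℓ hV).Gt 0 (Z : ℚbar)) : (ℓ : ℤ) ∣ Z := by
  by_contra hcon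
  have h1 := val_intCast_eq_one V.valuation hℓ (lt_one_of_liesOver hV) hcon
  rw [valOf_gt_zero_iff, ValuationSubring.mem_nonunits_iff, h1] at h
  exact lt_irrefl _ h

lemma is_four (hℓ : ℓ.Prime) (hℓ2 : ℓ ≠ 2) {V : ValuationSubring ℚbar} (hV : V.LiesOverPrime ℓ) :
    (valOf hℓ hV).Is 0 (4 : ℚbar) := by
  have h := valOf_natCast_of_not_dvd (K := ℚbar) hℓ hV (n := 4) (by
    intro h
    have h5 : ℓ ∣ 2 ^ 2 := by simpa using h
    exact hℓ2 ((Nat.prime_dvd_prime_iff_eq hℓ Nat.prime_two).mp (hℓ.dvd_of_dvd_pow h5)))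
  exact_mod_cast h

/-- the valuations of the differences of two-torsion `x`-coordinates of the quotient. -/
lemma val_target {w : QVal ℚbar} {h α : ℚ}
    (t : Target N ((W'.map (Int.castRingHom ℚ))⁄ℚbar) e e' e'' E E' E'' u)
    (hp : p.Prime) (hp2 : p ≠ 2) (hcard : Fintype.card N = p)
    (hN : NodeData w W e ((e - e') * (e - e'')) h)
    (h1 : w.Is h (e - e')) (h2 : w.Is 0 (e - e'')) (h3 : w.Is 0 (e' - e''))
    (hu : w.Is α (u ^ 2)) (hoff : ∀ S ∈ N, S ≠ 0 → 0 < pcomp w e h S) :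
    w.Is (α + (p * h - 2 * ∑ S ∈ nz N, pcomp w e h (S : W.Point))) (E' - E) ∧
      w.Is α (E'' - E) ∧ w.Is α (E'' - E') := by
  obtain ⟨k0, k1⟩ := kap_val_off hN hp hp2 hcard hoff h1.ge
  have k2 := kap_val_off' hN hp hp2 hcard hoff h2
  obtain ⟨T, hT⟩ := t.src.exists_two
  obtain ⟨T', hT'⟩ := t.src.rot.exists_two
  obtain ⟨T'', hT''⟩ := t.src.rot.rot.exists_two
  have i1 : w.Is h (e' - e) := by rw [← neg_sub]; exact h1.neg
  have i2 : w.Is 0 (e'' - e) := by rw [← neg_sub]; exact h2.neg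
  have i3 : w.Is 0 (e'' - e') := by rw [← neg_sub]; exact h3.neg
  refine ⟨?_, ?_, ?_⟩
  · rw [t.h' T' hT', t.src.fN_two t.odd hT hT', hcard, div_eq_mul_inv]
    refine (hu.mul (((i1.pow p).mul k2).mul (k1.mul k0).inv)).congr ?_
    ring
  · rw [t.h'' T'' hT'', t.src.swap'.fN_two t.odd hT hT'', hcard, div_eq_mul_inv]
    refine (hu.mul (((i2.pow p).mul k1).mul (k2.mul k0).inv)).congr ?_
    ring
  · have h4 := t.rot.h' T'' hT''
    rw [h4, t.rot.src.fN_two t.odd hT' hT'', hcard, div_eq_mul_inv]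
    refine (hu.mul (((i3.pow p).mul k0).mul (k2.mul k1).inv)).congr ?_
    ring

/-- If the image of `R` on the quotient curve never lies on the identity component, then `N`
lies on the identity component. -/
theorem pcomp_eq_zero_of_target (hℓ : ℓ.Prime) (hℓ2 : ℓ ≠ 2) {V : ValuationSubring ℚbar}
    (hV : V.LiesOverPrime ℓ) {h : ℚ}
    (t : Target N ((W'.map (Int.castRingHom ℚ))⁄ℚbar) e e' e'' E E' E'' u)
    (hp : p.Prime) (hp2 : p ≠ 2) (hcard : Fintype.card N = p) (hh : 0 < h)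
    (h1 : (valOf hℓ hV).Is h (e - e')) (h2 : (valOf hℓ hV).Is 0 (e - e''))
    (h3 : (valOf hℓ hV).Is 0 (e' - e'')) (hE : (valOf hℓ hV).Ge 0 E)
    {X Y Z : ℤ} (hX : 4 * (E'' - E) = X) (hY : 4 * (E'' - E') = Y) (hZ : 4 * (E' - E) = Z)
    (hXY : IsCoprime X Y) {R : W.Point} (hR : p • R = 0) (hRN : R ∉ N)
    {Q : ((W'.map (Int.castRingHom ℚ))⁄ℚbar).Point} (hQx : xc Q = E + u ^ 2 * fN N e R)
    (hQ : (ℓ : ℤ) ∣ Z → ¬ W'.InZeroComponentAt V Q) :
    ∀ S ∈ N, pcomp (valOf hℓ hV) e h S = 0 := by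
  have h4 := is_four hℓ hℓ2 hV
  have hN := nodeData_of_split t.src hh h1 h2 h4
  rcases dichotomy hN hp hcard with hon | hoff
  · exact hon
  · exfalso
    obtain ⟨α, hu⟩ : ∃ α, (valOf hℓ hV).Is α (u ^ 2) := ⟨_, Is.of_ne (pow_ne_zero 2 t.u_ne)⟩
    obtain ⟨v1, v2, v3⟩ := val_target t hp hp2 hcard hN h1 h2 h3 hu hoff
    have hlt := two_sum_pcomp_lt hN hp hp2 hcard hoff
    have hα : α = 0 := by
      refine eq_zero_of_coprime (w := valOf hℓ hV) hXY ?_ ?_
      · rw [← hX]; exact (h4.mul v2).congr (by ring)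
      · rw [← hY]; exact (h4.mul v3).congr (by ring)
    subst hα
    have hgt : (valOf hℓ hV).Gt 0 (E' - E) := v1.gt (by linarith)
    have hZ' : (ℓ : ℤ) ∣ Z := by
      refine dvd_of_gt hℓ hV ?_
      rw [← hZ]
      exact (h4.ge.mul_gt hgt).mono (by linarith)
    refine hQ hZ' ?_
    obtain ⟨S, hS, hS0⟩ := exists_add_pcomp_eq_zero hN hp hp2 hcard hoff hR
    have hRS : R + S ≠ 0 := by
      intro h0
      apply hRN
      rw [eq_neg_of_add_eq_zero_left h0]
      exact N.neg_mem hS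
    obtain ⟨r, hr, hIs⟩ := fN_val_of_off hN hp hp2 hcard hoff hRS hS0
    refine inZero_of_split t.tgt hℓ hℓ2 hV hE ?_ ?_
    · rw [← neg_sub]; exact hgt.neg
    · have h5 := fN_add N e R ⟨S, hS⟩
      rw [hQx, ← h5, add_sub_cancel_left]
      exact (hu.mul hIs).not_gt (by linarith)

end target

end Fermat.Agent.S12val
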