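import Fermat.Agent.S12.Comp
import Fermat.Agent.ECVal.FormalTorsion
import Fermat.Agent.ECVal.QbarVal

/-!
# Valuations of `∏ (x(S) - e)` over a subgroup of the identity component
-/

set_option autoImplicit false

namespace Fermat.Agent.S12val

open WeierstrassCurve WeierstrassCurve.Affine WeierstrassCurve.Affine.Point
open FermatAgent.ECVal FermatAgent.ECVal.QVal Fermat.Agent.Isog

section split

variable {K : Type*} [Field K] {W : Affine K} {w : QVal K} {e e' e'' : K} {h : ℚ}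

/-- Node data from a factorisation of the two-division polynomial. -/
lemma nodeData_of_split (hs : Split W e e' e'') (hh : 0 < h) (h1 : w.Is h (e - e'))
    (h2 : w.Is 0 (e - e'')) (h4 : w.Is 0 (4 : K)) :
    NodeData w W e ((e - e') * (e - e'')) h where
  hh := hh
  hD := (h1.mul h2).congr (by ring)
  hB := by
    have h3 : W.b₂ + 12 * e = 4 * ((e - e') + (e - e'')) := by rw [hs.b₂]; ring
    rw [h3]
    exact (h4.mul ((h1.gt hh).add_is h2)).congr (by ring)
  h4 := by rw [hs.b₂, hs.b₄]; ring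
  h6 := by rw [hs.b₂, hs.b₄, hs.b₆]; ring
  h8 := by rw [hs.b₂, hs.b₄, hs.b₆, hs.b₈]; ring

variable [DecidableEq K]

/-- The duplication formula. -/
lemma dup_split (hs : Split W e e' e'') {S : W.Point} (hS : S ≠ 0) (hSS : S + S ≠ 0) :
    eta S ^ 2 * (xc (S + S) - e) = ((xc S - e) ^ 2 - (e - e') * (e - e'')) ^ 2 := by
  obtain ⟨x, y, hxy, rfl⟩ := exists_some hS
  rcases double_cases hxy with ⟨h1, -⟩ | ⟨h1, α, α', hα, h2, h3⟩
  · exact absurd h1 hSS
  · rw [h2, xc_some, xc_some, eta_some]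
    have h4 := psi2_sq hxy.1
    rw [hs.b₂, hs.b₄, hs.b₆] at h4
    rw [hs.b₄, hs.b₆, hs.b₈] at h3
    linear_combination h3 - e * h4

/-- A point whose `x`-coordinate reduces to a simple root of the two-division polynomial has a
double in the kernel of reduction. -/
lemma is_zero_of_simple (hs : Split W e e' e'') (he : w.Ge 0 e) (he' : w.Ge 0 e')
    (he'' : w.Ge 0 e'') (h1 : w.Is 0 (e - e')) (h2 : w.Is 0 (e - e'')) {S : W.Point} (hS : S ≠ 0)
    (hSS : S + S ≠ 0) (hx : w.Ge 0 (xc S)) (hx2 : w.Ge 0 (xc (S + S))) :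
    w.Is 0 (xc S - e) := by
  by_cases hgt : w.Gt 0 (xc S - e)
  · exfalso
    have h3 := dup_split hs hS hSS
    have h4 := hs.eta_sq' hS
    have h5 : w.Gt 0 (eta S ^ 2) := by
      rw [h4]
      have h6 := ((hgt.mul_ge (hx.sub he')).mul_ge (hx.sub he''))
      exact (ge_four.mul_gt h6).mono (by linarith)
    have h6 : w.Is 0 (((xc S - e) ^ 2 - (e - e') * (e - e'')) ^ 2) := by
      have h7 : w.Gt 0 ((xc S - e) ^ 2) := by
        rw [pow_two]
        exact (hgt.mul_ge hgt.ge).mono (by linarith)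
      exact ((h7.sub_is ((h1.mul h2).congr (by ring)))).sq.congr (by ring)
    rw [← h3] at h6
    have h7 := (h5.mul_ge (hx2.sub he)).mono (show (0 : ℚ) ≤ 0 + 0 by linarith)
    exact absurd (h6.lt_of_gt h7) (lt_irrefl _)
  · rw [not_gt_iff] at hgt
    exact ⟨hgt.1, le_antisymm hgt.2 ((hx.sub he).resolve_left hgt.1)⟩

end split

section sub

variable {K : Type*} [Field K] [DecidableEq K] {W : Affine K} {w : QVal K} {e e' e'' : K} {h : ℚ}
  {G : AddSubgroup W.Point} [Fintype G] [DecidableEq G] {p : ℕ}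

lemma add_self_ne_zero' (hp : p.Prime) (hp2 : p ≠ 2) (hcard : Fintype.card G = p) {S : W.Point}
    (hS : S ∈ G) (hS0 : S ≠ 0) : S + S ≠ 0 := by
  intro h
  refine hS0 (eq_zero_of_add_self (N := G) ?_ hS h)
  rw [hcard]; exact hp.odd_of_ne_two hp2

/-- Kernel of reduction: all valuations agree. -/
lemma kap_val_of_neg (he : w.Ge 0 e) (he' : w.Ge 0 e')
    (hneg : ∀ S ∈ G, S ≠ 0 → ¬ w.Ge 0 (xc S)) :
    ∃ r : ℚ, w.Is r (kap G e) ∧ w.Is r (kap G e') := by
  refine ⟨∑ S ∈ nz G, w.val (xc (S : W.Point)), ?_, ?_⟩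
  · refine Is_prod _ _ _ fun S hS => ?_
    have h1 := hneg S S.2 (coe_ne_zero_of_mem_nz G hS)
    rw [not_ge_iff] at h1
    exact (show w.Is _ (xc (S : W.Point)) from ⟨h1.1, rfl⟩).sub_gt (he.gt h1.2)
  · refine Is_prod _ _ _ fun S hS => ?_
    have h1 := hneg S S.2 (coe_ne_zero_of_mem_nz G hS)
    rw [not_ge_iff] at h1
    exact (show w.Is _ (xc (S : W.Point)) from ⟨h1.1, rfl⟩).sub_gt (he'.gt h1.2)

lemma kap_val_zero (h0 : ∀ S ∈ G, S ≠ 0 → w.Is 0 (xc S - e)) : w.Is 0 (kap G e) := by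
  have h1 : w.Is (∑ S ∈ nz G, (0 : ℚ)) (kap G e) :=
    Is_prod _ _ _ fun S hS => h0 S S.2 (coe_ne_zero_of_mem_nz G hS)
  exact h1.congr (by simp)

/-- simple root -/
lemma kap_val_of_simple (hp : p.Prime) (hp2 : p ≠ 2) (hcard : Fintype.card G = p)
    (hs : Split W e e' e'') (he : w.Ge 0 e) (he' : w.Ge 0 e')
    (he'' : w.Ge 0 e'') (h1 : w.Is 0 (e - e')) (h2 : w.Is 0 (e - e''))
    (hx : ∀ S ∈ G, S ≠ 0 → w.Ge 0 (xc S)) : w.Is 0 (kap G e) := by
  refine kap_val_zero fun S hS hS0 => ?_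
  have h3 := add_self_ne_zero' hp hp2 hcard hS hS0
  exact is_zero_of_simple hs he he' he'' h1 h2 hS0 h3 (hx S hS hS0) (hx _ (G.add_mem hS hS) h3)

/-- node, points with nonsingular reduction -/
lemma is_zero_of_pcomp (hh : 0 < h) (he : w.Ge 0 e) {S : W.Point} (hS0 : S ≠ 0)
    (hx : w.Ge 0 (xc S)) (hS : pcomp w e h S = 0) : w.Is 0 (xc S - e) := by
  obtain ⟨r, hr, hr'⟩ := is_of_pcomp_eq_zero hh hS0 hS
  refine ⟨hr'.1, le_antisymm ?_ ((hx.sub he).resolve_left hr'.1)⟩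
  rw [hr'.2]; exact hr

theorem kap_val_of_on (hp : p.Prime) (hp2 : p ≠ 2) (hcard : Fintype.card G = p)
    (hs : Split W e e' e'') (he : w.Ge 0 e) (he' : w.Ge 0 e')
    (he'' : w.Ge 0 e'') (h1 : w.Is 0 (e - e'')) (h2 : w.Is 0 (e' - e''))
    (h3 : w.Is 0 (e - e') ∨ (0 < h ∧ w.Gt 0 (e - e') ∧ ∀ S ∈ G, pcomp w e h S = 0))
    (hx : (∀ S ∈ G, S ≠ 0 → w.Ge 0 (xc S)) ∨ ∀ S ∈ G, S ≠ 0 → ¬ w.Ge 0 (xc S)) :
    ∃ r : ℚ, w.Is r (kap G e) ∧ w.Is r (kap G e') ∧ w.Is r (kap G e'') := by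
  rcases hx with hx | hx
  · refine ⟨0, ?_, ?_, ?_⟩
    · rcases h3 with h3 | ⟨h3, h4, h5⟩
      · exact kap_val_of_simple hp hp2 hcard hs he he' he'' h3 h1 hx
      · exact kap_val_zero fun S hS hS0 => is_zero_of_pcomp h3 he hS0 (hx S hS hS0) (h5 S hS)
    · rcases h3 with h3 | ⟨h3, h4, h5⟩
      · refine kap_val_of_simple hp hp2 hcard hs.swap he' he he'' ?_ h2 hx
        rw [← neg_sub]; exact h3.neg
      · refine kap_val_zero fun S hS hS0 => ?_
        have h6 := is_zero_of_pcomp h3 he hS0 (hx S hS hS0) (h5 S hS)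
        have h7 : xc S - e' = (xc S - e) + (e - e') := by ring
        rw [h7]
        exact h6.add_gt h4
    · refine kap_val_of_simple hp hp2 hcard hs.rot.rot he'' he he' ?_ ?_ hx
      · rw [← neg_sub]; exact h1.neg
      · rw [← neg_sub]; exact h2.neg
  · obtain ⟨r, h4, h5⟩ := kap_val_of_neg he he' hx
    obtain ⟨r', h6, h7⟩ := kap_val_of_neg he he'' hx
    have h8 : r = r' := by rw [← h4.2, ← h6.2]
    exact ⟨r, h4, h5, h8 ▸ h7⟩

end sub

section formal

variable {K : Type*} [Field K] [DecidableEq K] [Algebra ℚ K] [Algebra.IsAlgebraic ℚ K]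
  {W : Affine K} {G : AddSubgroup W.Point} [Fintype G] {p q : ℕ}

/-- Either all nonzero points of `G` have integral `x`-coordinate, or none has. -/
theorem integral_dichotomy (hq : q.Prime) {A : ValuationSubring K} (hA : A.LiesOverPrime q)
    (hp : p.Prime) (hcard : Fintype.card G = p)
    (hb2 : W.b₂ ∈ A) (hb4 : W.b₄ ∈ A) (hb6 : W.b₆ ∈ A) (hb8 : W.b₈ ∈ A) :
    (∀ S ∈ G, S ≠ 0 → (valOf hq hA).Ge 0 (xc S)) ∨
      ∀ S ∈ G, S ≠ 0 → ¬ (valOf hq hA).Ge 0 (xc S) := by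
  by_cases H : ∃ S ∈ G, S ≠ 0 ∧ ¬ (valOf hq hA).Ge 0 (xc S)
  · right
    obtain ⟨S, hS, hS0, hS1⟩ := H
    intro T hT hT0 hT1
    obtain ⟨k, rfl⟩ := exists_nsmul_eq hp hcard hS hS0 hT
    rw [valOf_ge_zero_iff] at hS1 hT1
    obtain ⟨x, y, hxy, rfl⟩ := exists_some hS0
    rw [xc_some] at hS1
    have hx0 : x ≠ 0 := by
      rintro rfl
      exact hS1 A.zero_mem
    have hvx : 1 < A.valuation x := by
      rw [← not_le, A.valuation_le_one_iff]
      exact hS1
    have hc0 : x⁻¹ ≠ 0 := inv_ne_zero hx0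
    have hc : A.valuation x⁻¹ < 1 := by
      rw [map_inv₀]
      exact inv_lt_one_of_one_lt₀ hvx
    have hnear : Near A.valuation x⁻¹ (some x y hxy) := by
      refine near_some _ ?_
      rw [inv_mul_cancel₀ hx0, map_one]
    have h1 := (near_nsmul A.valuation hc0 hc ((A.valuation_le_one_iff _).mpr hb2)
      ((A.valuation_le_one_iff _).mpr hb4) ((A.valuation_le_one_iff _).mpr hb6)
      ((A.valuation_le_one_iff _).mpr hb8) hnear k).1
    obtain ⟨x', y', hxy', he⟩ := exists_some hT0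
    rw [he, xc_some] at hT1
    have h2 := h1 x' y' hxy' he
    rw [map_mul] at h2
    have h3 : A.valuation x' ≤ 1 := (A.valuation_le_one_iff _).mpr hT1
    have h4 : A.valuation x⁻¹ * A.valuation x' < 1 := by
      calc A.valuation x⁻¹ * A.valuation x' ≤ A.valuation x⁻¹ * 1 := by gcongr
        _ < 1 := by rw [mul_one]; exact hc
    exact absurd h2 (not_le.mpr h4)
  · left
    push Not at H
    exact H

/-- Points of order prime to the residue characteristic are integral. -/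
theorem integral_of_ne (hq : q.Prime) {A : ValuationSubring K} (hA : A.LiesOverPrime q)
    (hcard : Fintype.card G = p) (hpq : ¬ q ∣ p)
    (hb2 : W.b₂ ∈ A) (hb4 : W.b₄ ∈ A) (hb6 : W.b₆ ∈ A) (hb8 : W.b₈ ∈ A) :
    ∀ S ∈ G, S ≠ 0 → (valOf hq hA).Ge 0 (xc S) := by
  intro S hS hS0
  have : CharZero K := algebraRat.charZero K
  obtain ⟨x, y, hxy, rfl⟩ := exists_some hS0
  rw [valOf_ge_zero_iff, xc_some, ← A.valuation_le_one_iff]
  have h1 := val_intCast_eq_one A.valuation hq (lt_one_of_liesOver hA) (n := (p : ℤ))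
      (by exact_mod_cast hpq)
  rw [Int.cast_natCast] at h1
  exact le_one_of_nsmul_eq_zero A.valuation ((A.valuation_le_one_iff _).mpr hb2)
      ((A.valuation_le_one_iff _).mpr hb4) ((A.valuation_le_one_iff _).mpr hb6)
      ((A.valuation_le_one_iff _).mpr hb8) h1 (card_smul_eq_zero' hcard hS)

end formal

end Fermat.Agent.S12val
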