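import Fermat.Agent.EC.RedGalois
import Fermat.Agent.EC.NodalTorsion
import Fermat.Agent.S13_NoRationalPoint
import Fermat.Agent.S13_Eisenstein
import Fermat.Agent.Torsion.Mult

/-!
# Rational torsion points of large prime order at small primes and at `p`
-/

set_option autoImplicit false

namespace Fermat.Agent.S12val

open WeierstrassCurve WeierstrassCurve.Affine WeierstrassCurve.Affine.Point
open Fermat.Agent.ECRed

local notation "ℚbar" => AlgebraicClosure ℚ

section

variable {A : ValuationSubring ℚbar} {ℓ : ℕ}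

lemma natCast_residue_eq_zero (hA : A.LiesOverPrime ℓ) :
    ((ℓ : ℕ) : IsLocalRing.ResidueField A) = 0 := by
  have h1 : ((ℓ : ℕ) : ℚbar) ∈ A.nonunits := hA
  have h2 : ((ℓ : ℕ) : A) ∈ IsLocalRing.maximalIdeal A := by
    rw [← ValuationSubring.coe_mem_nonunits_iff]
    simpa using h1
  rw [← map_natCast (IsLocalRing.residue A), IsLocalRing.residue_eq_zero_iff]
  exact h2

lemma charP_residue (hℓ : ℓ.Prime) (hA : A.LiesOverPrime ℓ) :
    CharP (IsLocalRing.ResidueField A) ℓ := by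
  obtain ⟨c, hc⟩ := CharP.exists (IsLocalRing.ResidueField A)
  have h1 : c ∣ ℓ := (CharP.cast_eq_zero_iff _ c ℓ).mp (natCast_residue_eq_zero hA)
  rcases (Nat.dvd_prime hℓ).mp h1 with h | h
  · exact absurd h (CharP.char_ne_one (IsLocalRing.ResidueField A) c)
  · rwa [h] at hc

/-- the reduction of a rational number lies in the prime field. -/
lemma exists_zmod_of_redTo (hℓ : ℓ.Prime) (hA : A.LiesOverPrime ℓ) {r : ℚ}
    {a : IsLocalRing.ResidueField A}
    (h : RedTo (IsLocalRing.residue A) (algebraMap ℚ ℚbar r) a) :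
    haveI := charP_residue hℓ hA
    ∃ z : ZMod ℓ, ZMod.castHom (dvd_refl ℓ) (IsLocalRing.ResidueField A) z = a := by
  have hch := charP_residue hℓ hA
  have : Fact ℓ.Prime := ⟨hℓ⟩
  have hpl := isPlace_valuationSubring A
  have h1 : RedTo (IsLocalRing.residue A) ((r.num : ℤ) : ℚbar)
      ((r.den : ℕ) * a : IsLocalRing.ResidueField A) := by
    have h2 := (redTo_natCast (K := ℚbar) (IsLocalRing.residue A) r.den).mul h
    have h3 : ((r.den : ℕ) : ℚbar) * algebraMap ℚ ℚbar r = ((r.num : ℤ) : ℚbar) := by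
      rw [← map_natCast (algebraMap ℚ ℚbar), ← map_mul, ← map_intCast (algebraMap ℚ ℚbar)]
      congr 1
      exact Rat.den_mul_eq_num r
    rwa [h3] at h2
  have h4 : ((r.num : ℤ) : IsLocalRing.ResidueField A) = (r.den : ℕ) * a :=
    hpl.unique (redTo_intCast _ _) h1
  have hden : ((r.den : ℕ) : IsLocalRing.ResidueField A) ≠ 0 := by
    intro h0
    rw [h0, zero_mul] at h4
    have h5 : ℓ ∣ r.den := (CharP.cast_eq_zero_iff _ ℓ _).mp h0
    have h6 : (ℓ : ℤ) ∣ r.num := (CharP.intCast_eq_zero_iff _ ℓ _).mp h4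
    have h7 : ℓ ∣ r.num.natAbs := Int.natCast_dvd.mp h6
    have h8 := Nat.dvd_gcd h7 h5
    rw [r.reduced] at h8
    exact hℓ.one_lt.ne' (Nat.dvd_one.mp h8)
  refine ⟨(r.num : ZMod ℓ) / (r.den : ZMod ℓ), ?_⟩
  rw [map_div₀, map_intCast, map_natCast, h4]
  field_simp

end

section points

variable {W : WeierstrassCurve ℤ} {p ℓ : ℕ} {A : ValuationSubring ℚbar}
  {Q : ((W.map (Int.castRingHom ℚ))⁄ℚbar).Point}

lemma exists_rat_xc (hfix : ∀ σ : ℚbar ≃ₐ[ℚ] ℚbar, σ • Q = Q) :
    ∃ r : ℚ, algebraMap ℚ ℚbar r = xc Q :=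
  S13five.exists_rat_of_fixed fun σ => by rw [← xc_smul, hfix]

/-- A rational point of prime order `p > 2 ℓ + 1` does not lie in the zero component at `ℓ`. -/
theorem not_inZero_of_small (hp : p.Prime) (hℓ : ℓ.Prime) (hlt : 2 * ℓ + 1 < p)
    (hA : A.LiesOverPrime ℓ) (hfix : ∀ σ : ℚbar ≃ₐ[ℚ] ℚbar, σ • Q = Q)
    (hord : addOrderOf Q = p) : ¬ W.InZeroComponentAt A Q := by
  classical
  intro hzero
  rw [inZeroComponentAt_iff] at hzero
  obtain ⟨R, hR⟩ := hzero
  have hE := redCurve_map_int_rat (K := ℚbar) (IsLocalRing.residue A) W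
  have hpl := isPlace_valuationSubring A
  have hch := charP_residue hℓ hA
  have : Fact ℓ.Prime := ⟨hℓ⟩
  have hvp : A.valuation ((p : ℕ) : ℚbar) = 1 := by
    have := S13aux.val_eq_one_of_not_dvd hℓ hA (n := (p : ℤ)) (by
      intro h
      have h' : ℓ ∣ p := by exact_mod_cast h
      have := (Nat.prime_dvd_prime_iff_eq hℓ hp).mp h'
      omega)
    exact_mod_cast this
  have hinj : ∀ m : ℤ, m • R = 0 → (p : ℤ) ∣ m := by
    intro m hm
    have h1 := isRed_zsmul hE hpl hR m
    rw [hm] at h1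
    have h2 : m • Q = 0 := by
      refine kernel_no_torsion hE hpl hvp h1 ?_
      rw [← hord, smul_comm, addOrderOf_nsmul_eq_zero, smul_zero]
    rw [← hord]
    exact addOrderOf_dvd_iff_zsmul_eq_zero.mpr h2
  -- the reductions of the multiples
  have hz : ∀ k : ℕ, ∃ z : ZMod ℓ, k • R ≠ 0 →
      ZMod.castHom (dvd_refl ℓ) (IsLocalRing.ResidueField A) z = xc (k • R) := by
    intro k
    by_cases hk : k • R = 0
    · exact ⟨0, fun h => absurd hk h⟩
    have h1 := isRed_nsmul hE hpl hR k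
    have hfix' : ∀ σ : ℚbar ≃ₐ[ℚ] ℚbar, σ • (k • Q) = k • Q := by
      intro σ
      rw [← natCast_zsmul, Point.algEquiv_smul_zsmul, hfix]
    obtain ⟨r, hr⟩ := exists_rat_xc hfix'
    rcases h1 with ⟨h0, h1⟩ | ⟨h0, h1, h2⟩ | ⟨h0, h1, h2, h3⟩
    · exact absurd h1 hk
    · exact absurd h2 hk
    · rw [← hr] at h2
      obtain ⟨z, hz⟩ := exists_zmod_of_redTo hℓ hA h2
      exact ⟨z, fun _ => hz⟩
  choose z hz using hz
  -- pigeonhole
  set m := (p - 1) / 2 with hm
  have hpm : p = 2 * m + 1 := by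
    obtain ⟨t, ht⟩ := hp.odd_of_ne_two (by have := hℓ.two_le; omega)
    omega
  have hcard : (Finset.univ : Finset (ZMod ℓ)).card < (Finset.Icc 1 m).card := by
    rw [Finset.card_univ, ZMod.card, Nat.card_Icc]
    omega
  obtain ⟨i, hi, j, hj, hij, hzij⟩ := Finset.exists_ne_map_eq_of_card_lt_of_maps_to hcard
    (f := z) (fun k _ => Finset.mem_univ _)
  rw [Finset.mem_Icc] at hi hj
  have hne : ∀ k : ℕ, 1 ≤ k ∧ k ≤ m → k • R ≠ 0 := by
    intro k hk h0
    have h1 := hinj (k : ℤ) (by rw [natCast_zsmul]; exact h0)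
    have h2 : p ∣ k := by exact_mod_cast h1
    have h3 := Nat.le_of_dvd (by omega) h2
    omega
  have hx : xc (i • R) = xc (j • R) := by
    rw [← hz i (hne i hi), ← hz j (hne j hj), hzij]
  have hcase : i • R = j • R ∨ i • R = -(j • R) := by
    have h1 := hne i hi
    have h2 := hne j hj
    generalize i • R = R₁ at *
    generalize j • R = R₂ at *
    rcases R₁ with _ | ⟨x₁, y₁, h₁⟩
    · exact absurd rfl h1
    rcases R₂ with _ | ⟨x₂, y₂, h₂⟩
    · exact absurd rfl h2
    simp only [xc] at hx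
    exact X_eq_iff.mp hx
  rcases hcase with h | h
  · have h1 : ((i : ℤ) - j) • R = 0 := by
      rw [sub_zsmul, natCast_zsmul, natCast_zsmul, h, add_neg_cancel]
    have h2 := hinj _ h1
    have h3 := Int.eq_zero_of_abs_lt_dvd h2 (by rw [abs_lt]; constructor <;> omega)
    omega
  · have h1 : ((i : ℤ) + j) • R = 0 := by
      rw [add_zsmul, natCast_zsmul, natCast_zsmul, h, neg_add_cancel]
    have h2 := hinj _ h1
    have h3 := Int.eq_zero_of_abs_lt_dvd h2 (by rw [abs_lt]; constructor <;> omega)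
    omega

end points

end Fermat.Agent.S12val
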