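import Fermat.Agent.S12.OnTarget
import Fermat.Agent.S12.OffTwo

/-!
# The situation at `2`
-/

set_option autoImplicit false

namespace Fermat.Agent.S12val

open WeierstrassCurve WeierstrassCurve.Affine WeierstrassCurve.Affine.Point
open FermatAgent.ECVal FermatAgent.ECVal.QVal Fermat.Agent.Isog

local notation "ℚbar" => AlgebraicClosure ℚ

section

variable {P : FreyPackage} (D : CofixedData P)

lemma frey_a₁ : (P.freyCurve⁄ℚbar).a₁ = 1 := by
  change algebraMap ℚ ℚbar P.freyCurve.a₁ = 1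
  simp [FreyPackage.freyCurve]

/-- the `bᵢ` of a base change of an integral curve are integral. -/
lemma b_mem (V : ValuationSubring ℚbar) :
    (P.freyCurve⁄ℚbar).b₂ ∈ V ∧ (P.freyCurve⁄ℚbar).b₄ ∈ V ∧ (P.freyCurve⁄ℚbar).b₆ ∈ V ∧
      (P.freyCurve⁄ℚbar).b₈ ∈ V := by
  have h : (P.freyCurve⁄ℚbar) = P.freyCurveInt.map (Int.castRingHom ℚbar) := by
    rw [← Frey.freyCurveInt_map]
    change (P.freyCurveInt.map (Int.castRingHom ℚ)).map (algebraMap ℚ ℚbar) = _
    rw [WeierstrassCurve.map_map]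
    congr 1
  rw [h, WeierstrassCurve.map_b₂, WeierstrassCurve.map_b₄, WeierstrassCurve.map_b₆,
    WeierstrassCurve.map_b₈]
  exact ⟨intCast_mem V _, intCast_mem V _, intCast_mem V _, intCast_mem V _⟩

variable {V : ValuationSubring ℚbar} (hV : V.LiesOverPrime 2)

lemma is_four_two : (valOf Nat.prime_two hV).Is 2 (4 : ℚbar) := by
  have h := valOf_prime Nat.prime_two hV
  have h2 := h.mul h
  have h3 : ((2 : ℕ) : ℚbar) * (2 : ℕ) = 4 := by norm_num
  rw [h3] at h2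
  exact h2.congr (by norm_num)

lemma is_zero_of_odd {A : ℤ} (hA : ¬ (2 : ℤ) ∣ A) : (valOf Nat.prime_two hV).Is 0 (A : ℚbar) := by
  have h1 := val_intCast_eq_one V.valuation Nat.prime_two (lt_one_of_liesOver hV)
    (n := A) (by exact_mod_cast hA)
  have hA0 : (A : ℚbar) ≠ 0 := by
    intro h
    rw [h, _root_.map_zero] at h1
    exact zero_ne_one h1
  have h2 : (valOf Nat.prime_two hV).Ge 0 (A : ℚbar) := ge_intCast A
  have h3 : ¬ (valOf Nat.prime_two hV).Gt 0 (A : ℚbar) := by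
    rw [valOf_gt_zero_iff, ValuationSubring.mem_nonunits_iff, h1]
    exact lt_irrefl _
  rw [not_gt_iff] at h3
  exact ⟨hA0, le_antisymm h3.2 (h2.resolve_left hA0)⟩

lemma not_two_dvd_a_pow (P : FreyPackage) : ¬ (2 : ℤ) ∣ P.a ^ P.p := by
  intro h
  have h1 := Frey.four_dvd_a_pow_add_one P
  omega

lemma not_two_dvd_c_pow (P : FreyPackage) : ¬ (2 : ℤ) ∣ P.c ^ P.p := by
  intro h
  have h1 := Frey.four_dvd_a_pow_add_one P
  have h2 := Frey.thirtytwo_dvd_b_pow P
  have h3 := P.hFLT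
  omega

/-- the valuation of `b ^ p` at `2`. -/
lemma val_b_pow : ∃ k : ℕ, 0 < k ∧
    (valOf Nat.prime_two hV).Is ((P.p * k : ℕ) : ℚ) ((P.b ^ P.p : ℤ) : ℚbar) := by
  have : Fact (Nat.Prime 2) := ⟨Nat.prime_two⟩
  have hb : ((P.b : ℤ) : ℚ) ≠ 0 := by exact_mod_cast P.hb0
  have h1 := (valOf_ratCast Nat.prime_two hV hb).pow P.p
  rw [map_intCast, padicValRat.of_int] at h1
  refine ⟨padicValInt 2 P.b, ?_, ?_⟩
  · have h2 := (padicValInt_dvd_iff (p := 2) 1 P.b).mp (by simpa using Frey.two_dvd_b P)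
    have := h2.resolve_left P.hb0
    omega
  · push_cast at h1 ⊢
    exact h1

/-- The values of `κ` at `2`. -/
theorem two_adic :
    (valOf Nat.prime_two hV).Is 0 (kap D.N (0 : ℚbar)) ∧
    (valOf Nat.prime_two hV).Is (-2 * (P.p - 1)) (kap D.N ((P.a : ℚbar) ^ P.p / 4)) ∧
    (valOf Nat.prime_two hV).Is 0 (kap D.N (-(P.b : ℚbar) ^ P.p / 4)) := by
  have hs := freySplit P
  have hp5 := P.hp5
  have hp2 : P.p ≠ 2 := by omega
  obtain ⟨k, hk, hb⟩ := val_b_pow (P := P) hV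
  have h4 := is_four_two hV
  have ha := is_zero_of_odd hV (not_two_dvd_a_pow P)
  set w := valOf Nat.prime_two hV with hw
  push_cast at ha hb
  have hpk : P.p ≤ P.p * k := Nat.le_mul_of_pos_right _ hk
  have hpk' : (5 : ℚ) ≤ P.p * k := by exact_mod_cast hp5.trans hpk
  have hA4 : w.Is (-2) ((P.a : ℚbar) ^ P.p / 4) := by
    rw [div_eq_mul_inv]
    exact (ha.mul h4.inv).congr (by ring)
  have hB4 : w.Is (P.p * k - 2) ((P.b : ℚbar) ^ P.p / 4) := by
    rw [div_eq_mul_inv]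
    exact (hb.mul h4.inv).congr (by ring)
  have hND : NodeData w (P.freyCurve⁄ℚbar) (algebraMap ℚ ℚbar 0)
      ((0 - (P.a : ℚbar) ^ P.p / 4) * (0 - -(P.b : ℚbar) ^ P.p / 4))
      (((P.p * k - 4 : ℤ)) : ℚ) := by
    rw [_root_.map_zero]
    refine ⟨?_, ?_, ?_, ?_, ?_, ?_⟩
    · push_cast; linarith
    · have : (0 - (P.a : ℚbar) ^ P.p / 4) * (0 - -(P.b : ℚbar) ^ P.p / 4) =
        -((P.a : ℚbar) ^ P.p / 4 * ((P.b : ℚbar) ^ P.p / 4)) := by ring
      rw [this]
      refine ((hA4.mul hB4).neg).congr ?_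
      push_cast; ring
    · have : (P.freyCurve⁄ℚbar).b₂ + 12 * 0 = (P.b : ℚbar) ^ P.p - (P.a : ℚbar) ^ P.p := by
        rw [hs.b₂]; ring
      rw [this]
      exact (hb.gt (by linarith)).sub_is ha
    · rw [hs.b₂, hs.b₄]; ring
    · rw [hs.b₂, hs.b₄, hs.b₆]; ring
    · rw [hs.b₂, hs.b₄, hs.b₆, hs.b₈]; ring
  have hon : ∀ S ∈ D.N, pcomp w (0 : ℚbar) (((P.p * k - 4 : ℤ)) : ℚ) S = 0 := by
    have hND' := hND
    rw [_root_.map_zero] at hND'
    rcases dichotomy hND' P.pp D.card with h | h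
    · exact h
    · exfalso
      have h5 := dvd_of_off (G := D.N) Nat.prime_two hV hND P.pp hp2 D.card D.stable (by
        rw [_root_.map_zero]; exact h)
      have h6 : (P.p : ℤ) ∣ 4 := by
        have h7 : (4 : ℤ) = P.p * k - (P.p * k - 4) := by ring
        rw [h7]
        exact dvd_sub (dvd_mul_right _ _) h5
      have h7 := Int.le_of_dvd (by norm_num) h6
      omega
  obtain ⟨hb2, hb4, hb6, hb8⟩ := b_mem (P := P) V
  have hint := integral_of_ne (G := D.N) Nat.prime_two hV D.card (by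
    intro h
    exact hp2 ((Nat.prime_dvd_prime_iff_eq Nat.prime_two P.pp).mp h).symm) hb2 hb4 hb6 hb8
  have hx0 : ∀ S ∈ D.N, S ≠ 0 → w.Is 0 (xc S - 0) := by
    intro S hS hS0
    have hh := hND.hh
    exact is_zero_of_pcomp hh (ge_zero 0) hS0 (hint S hS hS0) (hon S hS)
  refine ⟨kap_val_zero hx0, ?_, ?_⟩
  · have h1 : w.Is (∑ S ∈ nz D.N, (-2 : ℚ)) (kap D.N ((P.a : ℚbar) ^ P.p / 4)) := by
      refine Is_prod _ _ _ fun S hS => ?_
      have h2 := hx0 S S.2 (coe_ne_zero_of_mem_nz D.N hS)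
      rw [sub_zero] at h2
      exact (h2.gt (by norm_num)).sub_is hA4
    refine h1.congr ?_
    rw [Finset.sum_const, nsmul_eq_mul, Finset.card_erase_of_mem (Finset.mem_univ _),
      Finset.card_univ, D.card, Nat.cast_sub (by omega)]
    push_cast; ring
  · refine kap_val_zero fun S hS hS0 => ?_
    have h2 := hx0 S hS hS0
    rw [sub_zero] at h2
    have h3 : xc S - -(P.b : ℚbar) ^ P.p / 4 = xc S + (P.b : ℚbar) ^ P.p / 4 := by ring
    rw [h3]
    exact h2.add_gt (hB4.gt (by linarith))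

end

end Fermat.Agent.S12val
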